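/-
T1G-AN (helper1), TG-MONO part 1: the shared definitions of the monodromy layer for a general
subgroup `Γ ≤ SL(2, ℤ)` (in the applications `Γ₁(M)`, and `Γ₁(M) ∩ Γ₀(r)`), generic versions of
`Lib/T1/Defs.lean` and `Lib/T1/Mono/Char.lean`:

* `tgWsub k F₀ m`: the Kummer group of the function field `laurentBaseChange k F₀` (`F₀` a field of
  Laurent series over `ℚ`, in the applications `tgOneQ M`);
* `tgnX Γ m`: the characters of `Γ` with values in `μ_m`, trivial on parabolic and on finite order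
  elements;
* `TgnGroup Γ h`: the standing hypotheses on `Γ` (`T ∈ Γ`, the conjugates of `T ^ h` lie in `Γ`,
  all cusps are regular);
* `tgSig F₀ σ`: the coefficientwise Galois action on the units of `laurentBaseChange ℚ̄ F₀`.
-/
import Mathlib
import Fermat.Prelude.Def_ModularCurve_ArithmeticGalois
import Fermat.Agent.Lib.T1.Mono.Char

set_option autoImplicit false
set_option linter.unusedSectionVars false

namespace Fermat.Agent.T1G

open ModularCurve AlgebraicCurve Matrix MatrixGroups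
open ModularGroup (T)

local notation "Kbar" => AlgebraicClosure ℚ
local notation "GQ" => (AlgebraicClosure ℚ ≃ₐ[ℚ] AlgebraicClosure ℚ)

/-! ### The Kummer groups -/

/-- the group of functions `y ≠ 0` in the function field `laurentBaseChange k F₀` all of whose
orders `ord_P y` are divisible by `m` -/
def tgWsub (k : Type*) [Field k] [Algebra ℚ k] (F₀ : IntermediateField ℚ (LaurentSeries ℚ))
    (m : ℕ) : Subgroup (↥(laurentBaseChange k F₀))ˣ where
  carrier := {y | ∀ P : Place k ↥(laurentBaseChange k F₀),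
    (m : ℤ) ∣ P.ord (y : ↥(laurentBaseChange k F₀))}
  one_mem' := fun P => by
    rw [Units.val_one, Place.ord_one]
    exact dvd_zero _
  mul_mem' := fun {a b} ha hb P => by
    rw [Units.val_mul, Place.ord_mul P a.ne_zero b.ne_zero]
    exact dvd_add (ha P) (hb P)
  inv_mem' := fun {a} ha P => by
    rw [Units.val_inv_eq_inv_val, Place.ord_inv]
    exact (dvd_neg).mpr (ha P)

theorem mem_tgWsub {k : Type*} [Field k] [Algebra ℚ k]
    {F₀ : IntermediateField ℚ (LaurentSeries ℚ)} {m : ℕ} {y : (↥(laurentBaseChange k F₀))ˣ} :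
    y ∈ tgWsub k F₀ m ↔ ∀ P : Place k ↥(laurentBaseChange k F₀),
      (m : ℤ) ∣ P.ord (y : ↥(laurentBaseChange k F₀)) := Iff.rfl

/-- `m`-th powers are in the Kummer group -/
theorem tg_pow_mem_tgWsub {k : Type*} [Field k] [Algebra ℚ k]
    (F₀ : IntermediateField ℚ (LaurentSeries ℚ)) (m : ℕ) (t : (↥(laurentBaseChange k F₀))ˣ) :
    t ^ m ∈ tgWsub k F₀ m := by
  intro P
  rw [Units.val_pow_eq_pow_val, ← zpow_natCast, Place.ord_zpow]
  exact dvd_mul_right _ _

theorem tgWsub_le_of_eq_mul {k : Type*} [Field k] [Algebra ℚ k]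
    (F₀ : IntermediateField ℚ (LaurentSeries ℚ)) {m M d : ℕ} (hd : M = m * d) :
    tgWsub k F₀ M ≤ tgWsub k F₀ m := by
  intro y hy P
  have := hy P
  exact Dvd.dvd.trans ⟨(d : ℤ), by rw [hd]; push_cast; ring⟩ this

/-- the `m`-th powers, as a subgroup of the Kummer group -/
noncomputable def tgPowSub (k : Type*) [Field k] [Algebra ℚ k]
    (F₀ : IntermediateField ℚ (LaurentSeries ℚ)) (m : ℕ) : Subgroup (tgWsub k F₀ m) :=
  ((powMonoidHom m : (↥(laurentBaseChange k F₀))ˣ →* _).range).subgroupOf (tgWsub k F₀ m)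

theorem mem_tgPowSub {k : Type*} [Field k] [Algebra ℚ k]
    {F₀ : IntermediateField ℚ (LaurentSeries ℚ)} {m : ℕ} {y : tgWsub k F₀ m} :
    y ∈ tgPowSub k F₀ m ↔ ∃ t : (↥(laurentBaseChange k F₀))ˣ,
      t ^ m = (y : (↥(laurentBaseChange k F₀))ˣ) := by
  rw [tgPowSub, Subgroup.mem_subgroupOf, MonoidHom.mem_range]
  rfl

/-! ### The Galois action -/

section Sig

variable (F₀ : IntermediateField ℚ (LaurentSeries ℚ))

/-- the coefficientwise Galois action on the units of the function field over `ℚ̄` -/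
noncomputable def tgSig (σ : GQ) :
    (↥(laurentBaseChange Kbar F₀))ˣ →* (↥(laurentBaseChange Kbar F₀))ˣ :=
  Units.map ((arithmeticRingAut F₀ σ :
    ↥(laurentBaseChange Kbar F₀) ≃+* ↥(laurentBaseChange Kbar F₀)) :
      ↥(laurentBaseChange Kbar F₀) →* ↥(laurentBaseChange Kbar F₀))

@[simp]
theorem tgSig_coe (σ : GQ) (y : (↥(laurentBaseChange Kbar F₀))ˣ) :
    (((tgSig F₀ σ y : (↥(laurentBaseChange Kbar F₀))ˣ) : ↥(laurentBaseChange Kbar F₀)) :
      LaurentSeries Kbar) = coeffMap (σ : Kbar →+* Kbar)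
        (((y : (↥(laurentBaseChange Kbar F₀))ˣ) : ↥(laurentBaseChange Kbar F₀)) :
          LaurentSeries Kbar) := rfl

theorem tgSig_val (σ : GQ) (y : (↥(laurentBaseChange Kbar F₀))ˣ) :
    ((tgSig F₀ σ y : (↥(laurentBaseChange Kbar F₀))ˣ) : ↥(laurentBaseChange Kbar F₀))
      = arithmeticRingAut F₀ σ (y : ↥(laurentBaseChange Kbar F₀)) := rfl

/-- the Galois action preserves the Kummer groups -/
theorem tgSig_mem_tgWsub (m : ℕ) (σ : GQ) {y : (↥(laurentBaseChange Kbar F₀))ˣ}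
    (hy : y ∈ tgWsub Kbar F₀ m) : tgSig F₀ σ y ∈ tgWsub Kbar F₀ m := by
  intro P
  set g := arithmeticGalois F₀ σ with hg
  have h1 : P = g • (g⁻¹ • P) := by rw [smul_inv_smul]
  have h2 : ((tgSig F₀ σ y : (↥(laurentBaseChange Kbar F₀))ˣ) : ↥(laurentBaseChange Kbar F₀))
      = g • ((y : (↥(laurentBaseChange Kbar F₀))ˣ) : ↥(laurentBaseChange Kbar F₀)) := rfl
  rw [h1, h2, SemilinearAut.ord_smul]
  exact hy _

theorem tgSig_mul (σ τ : GQ) (y : (↥(laurentBaseChange Kbar F₀))ˣ) :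
    tgSig F₀ (σ * τ) y = tgSig F₀ σ (tgSig F₀ τ y) := by
  apply Units.ext
  apply Subtype.ext
  rw [tgSig_coe, tgSig_coe, tgSig_coe, coeffMap_coeffMap]
  exact coeffMap_congr (RingHom.ext fun _ => rfl) _

theorem tgSig_one (y : (↥(laurentBaseChange Kbar F₀))ˣ) : tgSig F₀ 1 y = y := by
  apply Units.ext
  apply Subtype.ext
  rw [tgSig_coe]
  rw [show ((1 : GQ) : Kbar →+* Kbar) = RingHom.id Kbar from RingHom.ext fun _ => rfl,
    coeffMap_id]

/-- the Galois action restricted to the Kummer group -/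
noncomputable def tgSigW (m : ℕ) (σ : GQ) : tgWsub Kbar F₀ m →* tgWsub Kbar F₀ m :=
  ((tgSig F₀ σ).comp (tgWsub Kbar F₀ m).subtype).codRestrict (tgWsub Kbar F₀ m)
    (fun y => tgSig_mem_tgWsub F₀ m σ y.2)

theorem tgSigW_coe (m : ℕ) (σ : GQ) (y : tgWsub Kbar F₀ m) :
    ((tgSigW F₀ m σ y : tgWsub Kbar F₀ m) : (↥(laurentBaseChange Kbar F₀))ˣ)
      = tgSig F₀ σ y.1 := rfl

end Sig

/-! ### The character groups -/

/-- `X_m(Γ)`: characters of `Γ` with values in the `m`-th roots of unity which are trivial on the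
elements with `tr² = 4` (parabolic elements and `±1`) and on the elements of finite order -/
def tgnX (Γ : Subgroup SL(2, ℤ)) (m : ℕ) : Subgroup (Γ →* ℂˣ) where
  carrier := {χ | (∀ γ, χ γ ^ m = 1) ∧
    (∀ γ : Γ, ((γ : SL(2, ℤ)) : Matrix (Fin 2) (Fin 2) ℤ).trace ^ 2 = 4 → χ γ = 1) ∧
    (∀ γ : Γ, IsOfFinOrder γ → χ γ = 1)}
  one_mem' := ⟨fun _ => by simp, fun _ _ => rfl, fun _ _ => rfl⟩
  mul_mem' := by
    rintro χ ψ ⟨h1, h2, h3⟩ ⟨k1, k2, k3⟩
    refine ⟨fun γ => ?_, fun γ hγ => ?_, fun γ hγ => ?_⟩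
    · rw [MonoidHom.mul_apply, mul_pow, h1, k1, one_mul]
    · rw [MonoidHom.mul_apply, h2 γ hγ, k2 γ hγ, one_mul]
    · rw [MonoidHom.mul_apply, h3 γ hγ, k3 γ hγ, one_mul]
  inv_mem' := by
    rintro χ ⟨h1, h2, h3⟩
    refine ⟨fun γ => ?_, fun γ hγ => ?_, fun γ hγ => ?_⟩
    · rw [MonoidHom.inv_apply, inv_pow, h1, inv_one]
    · rw [MonoidHom.inv_apply, h2 γ hγ, inv_one]
    · rw [MonoidHom.inv_apply, h3 γ hγ, inv_one]

theorem mem_tgnX {Γ : Subgroup SL(2, ℤ)} {m : ℕ} {χ : Γ →* ℂˣ} :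
    χ ∈ tgnX Γ m ↔ (∀ γ, χ γ ^ m = 1) ∧
    (∀ γ : Γ, ((γ : SL(2, ℤ)) : Matrix (Fin 2) (Fin 2) ℤ).trace ^ 2 = 4 → χ γ = 1) ∧
    (∀ γ : Γ, IsOfFinOrder γ → χ γ = 1) := Iff.rfl

/-- the standing hypotheses on the group `Γ` (period `h` at all cusps) -/
structure TgnGroup (Γ : Subgroup SL(2, ℤ)) (h : ℕ) : Prop where
  /-- the cusp `∞` has width one -/
  T_mem : T ∈ Γ
  /-- `h` is a common multiple of the widths of the cusps -/
  conj_mem : ∀ (σ : SL(2, ℤ)) (k : ℤ), σ⁻¹ * T ^ ((h : ℤ) * k) * σ ∈ Γ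
  /-- all cusps are regular (or `-1 ∈ Γ`) -/
  neg_conj : ∀ (σ : SL(2, ℤ)) (n : ℤ), -(σ⁻¹ * T ^ n * σ) ∈ Γ → σ⁻¹ * T ^ n * σ ∈ Γ

end Fermat.Agent.T1G
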