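/-
T1G-AN (helper1), TG-MONO part 2: the analytic dictionary `TgdDict` for a general subgroup
`Γ ≤ SL(2, ℤ)` and the monodromy character of an element of the Kummer group (generic version of
`Lib/T1/Mono/Monodromy.lean`).

Main results: for `y` in the function field with analytic function `Y = D.fn y`, a root `g ^ m = Y`
and its character `χ`:   `y ∈ tgWsub 𝕜 F₀ m ↔ χ ∈ tgnX Γ m`.
-/
import Mathlib
import Fermat.Agent.Lib.T1G.Mono.Defs
import Fermat.Agent.Lib.T1.Mono.Parab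
import Fermat.Agent.Lib.T1.Mono.Cusp
import Fermat.Agent.Lib.T1.Mono.EisChar
import Fermat.Agent.Lib.T1.Mono.Monodromy

set_option autoImplicit false
set_option linter.unusedSectionVars false

namespace Fermat.Agent.T1G

open Complex Set Filter Topology Matrix MatrixGroups CongruenceSubgroup ModularCurve
open UpperHalfPlane hiding I
open scoped Manifold Real
open Fermat.Agent.S24Lib (holH)
open ModularGroup (T)
open Fermat.Agent.T1

/-- **the analytic dictionary** for the function field `laurentBaseChange 𝕜 F₀` of `Γ \ ℍ*`;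
`h` is the period used for the expansions at the cusps -/
structure TgdDict (𝕜 : Type) [Field 𝕜] [Algebra 𝕜 ℂ] [Algebra ℚ 𝕜] (Γ : Subgroup SL(2, ℤ))
    (h : ℕ) (F₀ : IntermediateField ℚ (LaurentSeries ℚ)) where
  /-- the standing hypotheses on the group -/
  grp : TgnGroup Γ h
  /-- modular functions as meromorphic functions on `ℍ` -/
  fn : ↥(laurentBaseChange 𝕜 F₀) →+* tdmMer
  /-- the functions are `Γ`-invariant -/
  fn_inv : ∀ y : ↥(laurentBaseChange 𝕜 F₀), tdmIsInv Γ (fn y)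
  /-- the `q_h`-expansion of `tdmSL σ⁻¹ (fn y)` -/
  ex : SL(2, ℤ) → ↥(laurentBaseChange 𝕜 F₀) →+* LaurentSeries 𝕜
  /-- places of the function field versus points of `ℍ` and cusps -/
  dict : ∀ (m : ℕ) (y : (↥(laurentBaseChange 𝕜 F₀))ˣ), y ∈ tgWsub 𝕜 F₀ m ↔
    (∀ τ : ℍ, ∃ n : ℤ, tdmOrd τ (fn (y : ↥(laurentBaseChange 𝕜 F₀))) = m * n ∧
      ∀ γ : SL(2, ℤ), γ ∈ Γ → γ • τ = τ → (denom γ τ ^ (-2 : ℤ)) ^ n = 1) ∧
    (∀ σ : SL(2, ℤ), ∃ n : ℤ, (ex σ (y : ↥(laurentBaseChange 𝕜 F₀))).order = m * n ∧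
      ∀ k : ℤ, σ⁻¹ * T ^ k * σ ∈ Γ → (h : ℤ) ∣ k * n)
  /-- the analytic meaning of the order of the `q_h`-expansion -/
  cusp : ∀ (σ : SL(2, ℤ)) (y : ↥(laurentBaseChange 𝕜 F₀)), y ≠ 0 →
    ∃ (A B : holH) (C : ℝ) (w₀ : ℂ), w₀ ≠ 0 ∧
    tdmSL σ⁻¹ (fn y) = tdmOfHol A / tdmOfHol B ∧ (∀ τ : ℍ, C < τ.im → (B : ℍ → ℂ) τ ≠ 0) ∧
    Tendsto (fun τ : ℍ => (A : ℍ → ℂ) τ / (B : ℍ → ℂ) τ *
      cexp (-(2 * π * I * (((((ex σ y).order : ℤ) : ℝ) / h : ℝ) : ℂ) * τ)))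
      atImInfty (𝓝 w₀)

namespace TgdDict

variable {𝕜 : Type} [Field 𝕜] [Algebra 𝕜 ℂ] [Algebra ℚ 𝕜] {Γ : Subgroup SL(2, ℤ)} {h : ℕ}
  {F₀ : IntermediateField ℚ (LaurentSeries ℚ)} (D : TgdDict 𝕜 Γ h F₀)

theorem fn_injective : Function.Injective D.fn := D.fn.injective

theorem fn_ne_zero (y : (↥(laurentBaseChange 𝕜 F₀))ˣ) :
    D.fn (y : ↥(laurentBaseChange 𝕜 F₀)) ≠ 0 := (map_ne_zero _).mpr y.ne_zero

end TgdDict

/-- behaviour of a function with character under `σ⁻¹` at a conjugate of a translation -/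
theorem tgn_conj_translate {Γ : Subgroup SL(2, ℤ)} {g : tdmMer} {χ : Γ →* ℂˣ}
    (hχ : tdmHasChar Γ g χ) (σ : SL(2, ℤ)) (n : ℤ) (γ : Γ)
    (hγ : (γ : SL(2, ℤ)) = σ⁻¹ * T ^ n * σ ∨ (γ : SL(2, ℤ)) = -(σ⁻¹ * T ^ n * σ)) :
    tdmSL (T ^ n) (tdmSL σ⁻¹ g) = ((χ γ : ℂˣ) : ℂ) • tdmSL σ⁻¹ g := by
  have h1 : tdmSL (T ^ n) (tdmSL σ⁻¹ g) = tdmSL (σ⁻¹ * T ^ n) g := (tdmSL_mul _ _ _).symm
  have h2 : tdmSL (σ⁻¹ * T ^ n) g = tdmSL ((γ : SL(2, ℤ)) * σ⁻¹) g := by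
    rcases hγ with h | h
    · rw [h]
      congr 2
      group
    · rw [h, neg_mul, tdmSL_neg]
      congr 2
      group
  rw [h1, h2, tdmSL_mul, hχ γ, map_smul]

variable {𝕜 : Type} [Field 𝕜] [Algebra 𝕜 ℂ] [Algebra ℚ 𝕜] {Γ : Subgroup SL(2, ℤ)} {h : ℕ}
  [NeZero h] {F₀ : IntermediateField ℚ (LaurentSeries ℚ)} (D : TgdDict 𝕜 Γ h F₀)

/-- the multiplier at the cusp `σ⁻¹ ∞` of a root of the function of `y` -/
theorem TgdDict.mult_at_cusp {m : ℕ} (hm : m ≠ 0) (y : (↥(laurentBaseChange 𝕜 F₀))ˣ) {g : tdmMer}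
    (hg : g ^ m = D.fn (y : ↥(laurentBaseChange 𝕜 F₀))) (σ : SL(2, ℤ)) (n : ℤ) (c : ℂ)
    (hc : tdmSL (T ^ n) (tdmSL σ⁻¹ g) = c • tdmSL σ⁻¹ g) (K : ℤ)
    (hK : (D.ex σ (y : ↥(laurentBaseChange 𝕜 F₀))).order = K) :
    c = cexp (2 * π * I * (((K : ℝ) * (n : ℝ) / ((h : ℝ) * (m : ℝ)) : ℝ) : ℂ)) := by
  obtain ⟨A, B, C, w₀, hw₀, hAB, hB, hlim⟩ := D.cusp σ (y : ↥(laurentBaseChange 𝕜 F₀)) y.ne_zero
  have hpow : (tdmSL σ⁻¹ g) ^ m = tdmOfHol A / tdmOfHol B := by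
    rw [← map_pow, hg, hAB]
  rw [hK] at hlim
  have h1 := tdm_mult_of_cusp m (Nat.pos_of_ne_zero hm) (tdmSL σ⁻¹ g) n c hc A B hpow C hB _ w₀ hw₀
    hlim
  rw [h1]
  congr 1
  have hN : ((h : ℝ) : ℂ) ≠ 0 := by exact_mod_cast (NeZero.ne h)
  have hmC : (m : ℂ) ≠ 0 := by exact_mod_cast hm
  push_cast
  field_simp

/-- **the character of a root lies in `X_m`** -/
theorem TgdDict.char_mem {m : ℕ} (hm : m ≠ 0)
    {y : (↥(laurentBaseChange 𝕜 F₀))ˣ}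
    (hy : y ∈ tgWsub 𝕜 F₀ m) {g : tdmMer} (hg : g ^ m = D.fn (y : ↥(laurentBaseChange 𝕜 F₀)))
    {χ : Γ →* ℂˣ} (hχ : tdmHasChar Γ g χ) : χ ∈ tgnX Γ m := by
  have hfn0 : D.fn (y : ↥(laurentBaseChange 𝕜 F₀)) ≠ 0 := D.fn_ne_zero y
  have hg0 : g ≠ 0 := by
    rintro rfl
    rw [zero_pow hm] at hg
    exact hfn0 hg.symm
  obtain ⟨hτ, hσ⟩ := (D.dict m y).mp hy
  have hmZ : (m : ℤ) ≠ 0 := by exact_mod_cast hm
  refine ⟨fun γ => ?_, fun γ hγ => ?_, fun γ hγ => ?_⟩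
  · -- `χ ^ m = 1`
    have h1 := congrArg (fun x => x ^ m) (hχ γ)
    beta_reduce at h1
    rw [← map_pow, hg, D.fn_inv _ γ, smul_pow, hg] at h1
    have h2 : (1 : ℂ) • D.fn (y : ↥(laurentBaseChange 𝕜 F₀))
        = (((χ γ : ℂˣ) : ℂ) ^ m) • D.fn (y : ↥(laurentBaseChange 𝕜 F₀)) := by
      rw [one_smul]; exact h1
    apply Units.ext
    rw [Units.val_pow_eq_pow_val, Units.val_one]
    exact (tdm_smul_left_injective hfn0 h2).symm
  · -- parabolic elements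
    obtain ⟨σ, n, hσn⟩ := tdm_parabolic_conj (γ : SL(2, ℤ)) hγ
    have hmem : σ⁻¹ * T ^ n * σ ∈ Γ := by
      rcases hσn with h' | h'
      · rw [← h']; exact γ.2
      · apply D.grp.neg_conj
        rw [← h']; exact γ.2
    obtain ⟨n₀, hn₀, hdiv⟩ := hσ σ
    obtain ⟨j, hj⟩ := hdiv n hmem
    have h1 := D.mult_at_cusp hm y hg σ n _ (tgn_conj_translate hχ σ n γ hσn) _ hn₀
    apply Units.ext
    rw [h1, Units.val_one, tdm_exp_eq_one_iff]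
    refine ⟨j, ?_⟩
    have hN : (h : ℝ) ≠ 0 := by exact_mod_cast (NeZero.ne h)
    have hmR : (m : ℝ) ≠ 0 := by exact_mod_cast hm
    have hj' : ((n : ℝ) * (n₀ : ℝ)) = (h : ℝ) * (j : ℝ) := by exact_mod_cast hj
    push_cast
    field_simp
    linear_combination hj'
  · -- elements of finite order
    have hγ' : IsOfFinOrder (γ : SL(2, ℤ)) := by
      rw [isOfFinOrder_iff_pow_eq_one] at hγ ⊢
      obtain ⟨k, hk, hpow⟩ := hγ
      refine ⟨k, hk, ?_⟩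
      have := congrArg (fun x : Γ => (x : SL(2, ℤ))) hpow
      simpa using this
    have hγg := hχ γ
    rcases tdm_finOrder_cases (γ : SL(2, ℤ)) hγ' with h1 | h1 | ⟨τ₀, hτ₀⟩
    · rw [h1, tdmSL_one] at hγg
      apply Units.ext
      have h2 : (1 : ℂ) • g = ((χ γ : ℂˣ) : ℂ) • g := by rw [one_smul]; exact hγg
      exact (tdm_smul_left_injective hg0 h2).symm
    · rw [h1, tdmSL_neg, tdmSL_one] at hγg
      apply Units.ext
      have h2 : (1 : ℂ) • g = ((χ γ : ℂˣ) : ℂ) • g := by rw [one_smul]; exact hγg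
      exact (tdm_smul_left_injective hg0 h2).symm
    · obtain ⟨n, hn, hfix⟩ := hτ τ₀
      have hord : tdmOrd τ₀ g = n := by
        have h3 : tdmOrd τ₀ (g ^ m) = m * n := by rw [hg]; exact hn
        rw [tdmOrd_pow] at h3
        exact mul_left_cancel₀ hmZ h3
      have h4 := tdm_const_of_fixed (γ : SL(2, ℤ)) τ₀ hτ₀ g hg0 _ hγg
      rw [hord] at h4
      have h5 := hfix (γ : SL(2, ℤ)) γ.2 hτ₀
      have h6 : (1 : ℂ) / denom (γ : SL(2, ℤ)) τ₀ ^ 2 = denom (γ : SL(2, ℤ)) τ₀ ^ (-2 : ℤ) := by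
        rw [_root_.zpow_neg, one_div]
        norm_cast
      apply Units.ext
      rw [h4, h6, h5, Units.val_one]

/-- **converse**: if a root of the function of `y` has a character in `X_m`, then
`y ∈ tgWsub 𝕜 F₀ m` -/
theorem TgdDict.mem_of_char {m : ℕ} (hm : m ≠ 0)
    (y : (↥(laurentBaseChange 𝕜 F₀))ˣ) {g : tdmMer}
    (hg : g ^ m = D.fn (y : ↥(laurentBaseChange 𝕜 F₀))) {χ : Γ →* ℂˣ}
    (hχ : tdmHasChar Γ g χ) (hX : χ ∈ tgnX Γ m) : y ∈ tgWsub 𝕜 F₀ m := by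
  have hfn0 : D.fn (y : ↥(laurentBaseChange 𝕜 F₀)) ≠ 0 := D.fn_ne_zero y
  have hg0 : g ≠ 0 := by
    rintro rfl
    rw [zero_pow hm] at hg
    exact hfn0 hg.symm
  have hmZ : (m : ℤ) ≠ 0 := by exact_mod_cast hm
  have hN : (h : ℝ) ≠ 0 := by exact_mod_cast (NeZero.ne h)
  have hmR : (m : ℝ) ≠ 0 := by exact_mod_cast hm
  rw [D.dict m y]
  constructor
  · intro τ
    refine ⟨tdmOrd τ g, ?_, fun γ hγ hfix => ?_⟩
    · rw [← hg, tdmOrd_pow]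
    · have hfin : IsOfFinOrder (⟨γ, hγ⟩ : Γ) := by
        have := tdm_isOfFinOrder_of_fixed γ τ hfix
        rw [isOfFinOrder_iff_pow_eq_one] at this ⊢
        obtain ⟨k, hk, hpow⟩ := this
        exact ⟨k, hk, Subtype.ext (by simpa using hpow)⟩
      have h1 := hχ ⟨γ, hγ⟩
      rw [hX.2.2 _ hfin, Units.val_one] at h1
      have h2 := tdm_const_of_fixed γ τ hfix g hg0 1 h1
      have h6 : (1 : ℂ) / denom γ τ ^ 2 = denom γ τ ^ (-2 : ℤ) := by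
        rw [_root_.zpow_neg, one_div]
        norm_cast
      rw [← h6]
      exact h2.symm
  · intro σ
    set K : ℤ := (D.ex σ (y : ↥(laurentBaseChange 𝕜 F₀))).order with hK
    -- the basic relation
    have key : ∀ k : ℤ, σ⁻¹ * T ^ k * σ ∈ Γ → ∃ j : ℤ, K * k = h * m * j := by
      intro k hmem
      have h1 : tdmSL (T ^ k) (tdmSL σ⁻¹ g)
          = ((χ ⟨σ⁻¹ * T ^ k * σ, hmem⟩ : ℂˣ) : ℂ) • tdmSL σ⁻¹ g :=
        tgn_conj_translate hχ σ k ⟨σ⁻¹ * T ^ k * σ, hmem⟩ (Or.inl rfl)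
      rw [hX.2.1 _ (tdm_trace_conj_T σ k), Units.val_one] at h1
      have h2 := D.mult_at_cusp hm y hg σ k 1 h1 K hK.symm
      have h3 := (tdm_exp_eq_one_iff _).mp h2.symm
      obtain ⟨j, hj⟩ := h3
      refine ⟨j, ?_⟩
      have hj' : ((K : ℝ) * (k : ℝ)) = (h : ℝ) * (m : ℝ) * (j : ℝ) := by
        field_simp at hj
        linear_combination hj
      exact_mod_cast hj'
    have hNmem : σ⁻¹ * T ^ (h : ℤ) * σ ∈ Γ := by
      have := D.grp.conj_mem σ 1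
      rwa [mul_one] at this
    obtain ⟨n, hn⟩ := key h hNmem
    have hNZ : (h : ℤ) ≠ 0 := by exact_mod_cast (NeZero.ne h)
    have hKn : K = m * n := by
      apply mul_right_cancel₀ hNZ
      rw [hn]; ring
    refine ⟨n, hKn, fun k hmem => ?_⟩
    obtain ⟨j, hj⟩ := key k hmem
    refine ⟨j, ?_⟩
    apply mul_left_cancel₀ hmZ
    rw [hKn] at hj
    linear_combination hj

end Fermat.Agent.T1G
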