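/-
T1G-AN (helper1), TG-MONO part 4: Eisenstein series of weight `4` with character for a general
subgroup `Γ ≤ SL(2, ℤ)` (generic version of the second half of `Lib/T1/Mono/Eis.lean`; the general
Eisenstein sums `tdmEisGen` are imported).
-/
import Mathlib
import Fermat.Agent.Lib.T1G.Mono.Defs
import Fermat.Agent.Lib.T1.Mono.Eis

set_option autoImplicit false
set_option linter.unusedSectionVars false
set_option linter.unusedVariables false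
set_option linter.style.haveILetI false

open UpperHalfPlane Filter Topology Matrix MatrixGroups CongruenceSubgroup ModularForm
  EisensteinSeries Complex
open scoped Manifold

namespace Fermat.Agent.T1G

open Fermat.Agent.T1

noncomputable section

section Coeff

variable (Γ : Subgroup SL(2, ℤ)) (χ : Γ →* ℂˣ)

open Classical in
/-- the coefficient `χ(γ)⁻¹` attached to the bottom row of `γ ∈ Γ₀(N)` -/
def tgnEisCoeff (v : Fin 2 → ℤ) : ℂ :=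
  if h : ∃ γ : Γ, tdmBot (γ : SL(2, ℤ)) = v then (((χ h.choose)⁻¹ : ℂˣ) : ℂ) else 0

variable {Γ χ}

variable (hpar : ∀ γ : Γ,
  ((γ : SL(2, ℤ)) : Matrix (Fin 2) (Fin 2) ℤ).trace ^ 2 = 4 → χ γ = 1)

include hpar in
lemma tgn_chi_eq_of_bot_eq {γ γ' : Γ}
    (h : tdmBot (γ : SL(2, ℤ)) = tdmBot (γ' : SL(2, ℤ))) : χ γ = χ γ' := by
  have h1 : tdmBot (((γ' * γ⁻¹ : Γ)) : SL(2, ℤ)) = ![0, 1] := by
    rw [Subgroup.coe_mul, tdmBot_mul, ← h, ← tdmBot_mul, Subgroup.coe_inv, mul_inv_cancel,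
      tdmBot_one]
  have h2 := hpar (γ' * γ⁻¹) (tdm_trace_sq_of_bot _ h1)
  rw [map_mul, map_inv, mul_inv_eq_one] at h2
  exact h2.symm

include hpar in
lemma tgnEisCoeff_bot (γ : Γ) :
    tgnEisCoeff Γ χ (tdmBot (γ : SL(2, ℤ))) = (((χ γ)⁻¹ : ℂˣ) : ℂ) := by
  have h : ∃ γ' : Γ, tdmBot (γ' : SL(2, ℤ)) = tdmBot (γ : SL(2, ℤ)) := ⟨γ, rfl⟩
  unfold tgnEisCoeff
  rw [dif_pos h, tgn_chi_eq_of_bot_eq hpar h.choose_spec]

lemma tgnEisCoeff_of_not {v : Fin 2 → ℤ} (h : ¬ ∃ γ : Γ, tdmBot (γ : SL(2, ℤ)) = v) :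
    tgnEisCoeff Γ χ v = 0 := by
  unfold tgnEisCoeff
  rw [dif_neg h]

include hpar in
lemma tgnEisCoeff_vecMul_inv (γ : Γ) (w : Fin 2 → ℤ) :
    tgnEisCoeff Γ χ (w ᵥ* (((γ : SL(2, ℤ))⁻¹ : SL(2, ℤ)) : Matrix (Fin 2) (Fin 2) ℤ)) =
      ((χ γ : ℂˣ) : ℂ) * tgnEisCoeff Γ χ w := by
  by_cases h : ∃ δ : Γ, tdmBot (δ : SL(2, ℤ)) = w
  · obtain ⟨δ, rfl⟩ := h
    have h1 : tdmBot (δ : SL(2, ℤ)) ᵥ* (((γ : SL(2, ℤ))⁻¹ : SL(2, ℤ)) : Matrix (Fin 2) (Fin 2) ℤ) =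
        tdmBot (((δ * γ⁻¹ : Γ)) : SL(2, ℤ)) := by
      rw [Subgroup.coe_mul, tdmBot_mul, Subgroup.coe_inv]
    rw [h1, tgnEisCoeff_bot hpar, tgnEisCoeff_bot hpar, map_mul, map_inv, mul_inv, inv_inv,
      Units.val_mul, mul_comm]
  · have h' : ¬ ∃ δ : Γ, tdmBot (δ : SL(2, ℤ)) =
        w ᵥ* (((γ : SL(2, ℤ))⁻¹ : SL(2, ℤ)) : Matrix (Fin 2) (Fin 2) ℤ) := by
      rintro ⟨δ, hδ⟩
      apply h
      refine ⟨δ * γ, ?_⟩
      rw [Subgroup.coe_mul, tdmBot_mul, hδ, tdm_vecMul_inv_cancel']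
    rw [tgnEisCoeff_of_not h, tgnEisCoeff_of_not h', mul_zero]

lemma tgn_norm_eisCoeff_le {m : ℕ} (hm : m ≠ 0) (hfin : ∀ γ : Γ, χ γ ^ m = 1)
    (v : Fin 2 → ℤ) : ‖tgnEisCoeff Γ χ v‖ ≤ 1 := by
  unfold tgnEisCoeff
  split_ifs with h
  · have h1 : (((χ h.choose)⁻¹ : ℂˣ) : ℂ) ^ m = 1 := by
      rw [← Units.val_pow_eq_pow_val, inv_pow, hfin, inv_one, Units.val_one]
    exact (Complex.norm_eq_one_of_pow_eq_one h1 hm).le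
  · rw [norm_zero]
    exact zero_le_one

end Coeff


section Eis

variable {Γ : Subgroup SL(2, ℤ)} {χ : Γ →* ℂˣ} {m : ℕ}

/-- the weight-`4` Eisenstein series with character `χ` -/
def tgnEis (Γ : Subgroup SL(2, ℤ)) (χ : Γ →* ℂˣ) (τ : ℍ) : ℂ := tdmEisGen (tgnEisCoeff Γ χ) 4 τ

theorem tgnEis_mdiff (hm : m ≠ 0) (hχ : χ ∈ tgnX Γ m) : MDiff (tgnEis Γ χ) :=
  tdmEisGen_mdiff (tgn_norm_eisCoeff_le hm hχ.1) (by norm_num)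

theorem tgnEis_slash (hχ : χ ∈ tgnX Γ m) (γ : Γ) :
    tgnEis Γ χ ∣[(4 : ℤ)] (γ : SL(2, ℤ)) = ((χ γ : ℂˣ) : ℂ) • tgnEis Γ χ := by
  unfold tgnEis
  rw [tdmEisGen_slash]
  ext z
  rw [Pi.smul_apply, smul_eq_mul]
  unfold tdmEisGen
  rw [← tsum_mul_left]
  refine tsum_congr fun w => ?_
  change tgnEisCoeff Γ χ (w ᵥ* (((γ : SL(2, ℤ))⁻¹ : SL(2, ℤ)) : Matrix (Fin 2) (Fin 2) ℤ)) *
    eisSummand 4 w z = _
  rw [tgnEisCoeff_vecMul_inv hχ.2.1, mul_assoc]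

theorem tgnEis_smul (hχ : χ ∈ tgnX Γ m) (γ : Γ) (τ : ℍ) :
    tgnEis Γ χ ((γ : SL(2, ℤ)) • τ) =
      ((χ γ : ℂˣ) : ℂ) * denom (γ : SL(2, ℤ)) τ ^ (4 : ℤ) * tgnEis Γ χ τ := by
  have h := congrFun (tgnEis_slash hχ γ) τ
  rw [SL_slash_apply, Pi.smul_apply, smul_eq_mul, _root_.zpow_neg,
    mul_inv_eq_iff_eq_mul₀ (zpow_ne_zero _ <| denom_ne_zero _ τ)] at h
  rw [h]
  ring

theorem tgnEis_bdd (hm : m ≠ 0) (hχ : χ ∈ tgnX Γ m) (σ : SL(2, ℤ)) :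
    IsBoundedAtImInfty (tgnEis Γ χ ∣[(4 : ℤ)] σ) := by
  unfold tgnEis
  rw [tdmEisGen_slash]
  exact tdmEisGen_isBoundedAtImInfty (fun v => tgn_norm_eisCoeff_le hm hχ.1 _) (by norm_num)

end Eis

end

end Fermat.Agent.T1G
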