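/-
T1G-AN (helper1), TG-MONO part 5: the limit at `i∞` of the Eisenstein series with character of a
general subgroup `Γ ∋ T`, and the modular form `(E^χ)^m` of weight `4 m` (generic version of the
second half of `Lib/T1/Mono/EisForm.lean`).
-/
import Mathlib
import Fermat.Agent.Lib.T1G.Mono.Eis
import Fermat.Agent.Lib.T1.Mono.EisForm

set_option autoImplicit false
set_option linter.unusedSectionVars false
set_option linter.unusedVariables false
set_option linter.style.haveILetI false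

open UpperHalfPlane Filter Topology Matrix MatrixGroups CongruenceSubgroup ModularForm
  EisensteinSeries Complex
open scoped Manifold

namespace Fermat.Agent.T1G

open Fermat.Agent.T1

noncomputable section

section EisLimit

variable {Γ : Subgroup SL(2, ℤ)} {χ : Γ →* ℂˣ} {m : ℕ}

lemma tgn_trace_T_zpow (n : ℤ) :
    ((ModularGroup.T ^ n : SL(2, ℤ)) : Matrix (Fin 2) (Fin 2) ℤ).trace ^ 2 = 4 := by
  have h : (ModularGroup.T ^ n).1 = !![1, n; 0, 1] := ModularGroup.coe_T_zpow n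
  rw [h, Matrix.trace_fin_two]
  norm_num

theorem tgnEis_T_zpow (hT : ModularGroup.T ∈ Γ) (hχ : χ ∈ tgnX Γ m) (n : ℤ) (z : ℍ) :
    tgnEis Γ χ ((ModularGroup.T ^ n : SL(2, ℤ)) • z) = tgnEis Γ χ z := by
  have hmem : (ModularGroup.T ^ n : SL(2, ℤ)) ∈ Γ := Subgroup.zpow_mem _ hT n
  have h := tgnEis_smul hχ ⟨ModularGroup.T ^ n, hmem⟩ z
  have h1 : χ ⟨ModularGroup.T ^ n, hmem⟩ = 1 := hχ.2.1 _ (tgn_trace_T_zpow n)
  have h2 : denom ((ModularGroup.T ^ n : SL(2, ℤ))) z = 1 := tdm_denom_T_zpow n z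
  rw [h1] at h
  simp only [Units.val_one, one_mul] at h
  rw [h2, _root_.one_zpow, one_mul] at h
  exact h

lemma tgnEisCoeff_zero_one (hχ : χ ∈ tgnX Γ m) : tgnEisCoeff Γ χ ![0, 1] = 1 := by
  have h := tgnEisCoeff_bot hχ.2.1 (1 : Γ)
  rw [Subgroup.coe_one, tdmBot_one, map_one, inv_one, Units.val_one] at h
  exact h

/-- an element with bottom row `(0, -1)` has `tr² = 4` -/
lemma tgn_trace_sq_of_bot_neg (δ : SL(2, ℤ)) (h : tdmBot δ = ![0, -1]) :
    (δ : Matrix (Fin 2) (Fin 2) ℤ).trace ^ 2 = 4 := by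
  have h10 : (δ : Matrix (Fin 2) (Fin 2) ℤ) 1 0 = 0 := by
    have := congrFun h 0
    simpa [tdmBot] using this
  have h11 : (δ : Matrix (Fin 2) (Fin 2) ℤ) 1 1 = -1 := by
    have := congrFun h 1
    simpa [tdmBot] using this
  have hdet := δ.det_coe
  rw [Matrix.det_fin_two, h10, h11, mul_zero, sub_zero] at hdet
  have h00 : (δ : Matrix (Fin 2) (Fin 2) ℤ) 0 0 = -1 := by linarith
  rw [Matrix.trace_fin_two, h00, h11]
  norm_num

lemma tgnEisCoeff_zero_negOne (hχ : χ ∈ tgnX Γ m) :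
    tgnEisCoeff Γ χ ![0, -1] = 0 ∨ tgnEisCoeff Γ χ ![0, -1] = 1 := by
  by_cases hex : ∃ γ : Γ, tdmBot (γ : SL(2, ℤ)) = ![0, -1]
  · right
    obtain ⟨γ, hγ⟩ := hex
    have h := tgnEisCoeff_bot hχ.2.1 γ
    rw [hγ, hχ.2.1 _ (tgn_trace_sq_of_bot_neg _ hγ), inv_one, Units.val_one] at h
    exact h
  · left
    exact tgnEisCoeff_of_not hex

theorem tgn_tsum_limTerm (hχ : χ ∈ tgnX Γ m) :
    ∑' v, tdmEisLimTerm (tgnEisCoeff Γ χ) 4 v = 1 + tgnEisCoeff Γ χ ![0, -1] := by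
  have hne : (![0, 1] : Fin 2 → ℤ) ≠ ![0, -1] := by
    intro h
    have := congrFun h 1
    simp at this
  rw [tsum_eq_sum (s := {![0, 1], ![0, -1]})]
  · rw [Finset.sum_pair hne]
    unfold tdmEisLimTerm
    rw [if_pos (by simp), if_pos (by simp), tgnEisCoeff_zero_one hχ]
    norm_num
  · intro v hv
    unfold tdmEisLimTerm
    split_ifs with h0
    · by_cases hex : ∃ γ : Γ, tdmBot (γ : SL(2, ℤ)) = v
      · exfalso
        obtain ⟨γ, rfl⟩ := hex
        apply hv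
        rcases tdm_bot_zero _ h0 with h | h
        · rw [h]; simp
        · rw [h]; simp
      · rw [tgnEisCoeff_of_not hex, zero_mul]
    · rfl

theorem tgnEis_tendsto (hT : ModularGroup.T ∈ Γ) (hm : m ≠ 0) (hχ : χ ∈ tgnX Γ m) :
    Tendsto (tgnEis Γ χ) atImInfty (𝓝 (1 + tgnEisCoeff Γ χ ![0, -1])) := by
  rw [← tgn_tsum_limTerm hχ]
  exact tdmEisGen_tendsto (tgn_norm_eisCoeff_le hm hχ.1) (by norm_num)
    (fun n z => tgnEis_T_zpow hT hχ n z)

theorem tgnEis_ne_zero (hT : ModularGroup.T ∈ Γ) (hm : m ≠ 0) (hχ : χ ∈ tgnX Γ m) :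
    tgnEis Γ χ ≠ 0 := by
  intro h
  have h1 := tgnEis_tendsto hT hm hχ
  rw [h] at h1
  have h2 : Tendsto (0 : ℍ → ℂ) atImInfty (𝓝 0) := tendsto_const_nhds
  have h3 := tendsto_nhds_unique h1 h2
  rcases tgnEisCoeff_zero_negOne hχ with h4 | h4
  · rw [h4] at h3
    norm_num at h3
  · rw [h4] at h3
    norm_num at h3

end EisLimit

section EisPow

variable {Γ : Subgroup SL(2, ℤ)} {χ : Γ →* ℂˣ} {m : ℕ}

theorem tgnEis_pow_slash (hχ : χ ∈ tgnX Γ m) (γ : Γ) :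
    (tgnEis Γ χ ^ m) ∣[(4 * (m : ℤ))] (γ : SL(2, ℤ)) = tgnEis Γ χ ^ m := by
  rw [tdm_pow_slash, tgnEis_slash hχ, smul_pow, ← Units.val_pow_eq_pow_val, hχ.1, Units.val_one,
    one_smul]

/-- the `m`-th power of the Eisenstein series with character `χ ∈ X_m` is a modular form of
weight `4 m` for `Γ` -/
def tgnEisPow [Γ.FiniteIndex] (hm : m ≠ 0) (hχ : χ ∈ tgnX Γ m) :
    ModularForm Γ (4 * (m : ℤ)) where
  toFun := tgnEis Γ χ ^ m
  slash_action_eq' A hA := by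
    obtain ⟨A, (hA : A ∈ Γ), rfl⟩ := hA
    exact tgnEis_pow_slash hχ ⟨A, hA⟩
  holo' := by
    have h := tgnEis_mdiff hm hχ
    change MDiff (tgnEis Γ χ ^ m)
    exact h.pow m
  bdd_at_cusps' {c} hc := by
    rw [Subgroup.IsArithmetic.isCusp_iff_isCusp_SL2Z] at hc
    rw [OnePoint.isBoundedAt_iff_forall_SL2Z hc]
    intro γ hγ
    rw [tdm_pow_slash]
    exact tdm_isBoundedAtImInfty_pow (tgnEis_bdd hm hχ γ) m

@[simp]
lemma tgnEisPow_apply [Γ.FiniteIndex] (hm : m ≠ 0) (hχ : χ ∈ tgnX Γ m) (τ : ℍ) :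
    tgnEisPow hm hχ τ = tgnEis Γ χ τ ^ m := rfl

lemma coe_tgnEisPow [Γ.FiniteIndex] (hm : m ≠ 0) (hχ : χ ∈ tgnX Γ m) :
    (tgnEisPow hm hχ : ℍ → ℂ) = tgnEis Γ χ ^ m := rfl

end EisPow

end

end Fermat.Agent.T1G
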