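/-
T1G-AN (helper1), TG-MONO part 6: the meromorphic function `g_χ = E^χ / E^1` with character `χ`
for a general subgroup `Γ ∋ T` (generic version of `Lib/T1/Mono/EisChar.lean`).
-/
import Mathlib
import Fermat.Agent.Lib.T1G.Mono.EisForm
import Fermat.Agent.Lib.T1.Mono.EisChar

set_option autoImplicit false
set_option linter.unusedSectionVars false

namespace Fermat.Agent.T1G

open Complex Set Filter Topology Matrix MatrixGroups CongruenceSubgroup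
open UpperHalfPlane hiding I
open scoped Manifold
open Fermat.Agent.S24Lib (holH)
open Fermat.Agent.T1

/-! ### The function `g_χ` -/

section

variable {Γ : Subgroup SL(2, ℤ)} {χ : Γ →* ℂˣ} {m : ℕ}

/-- `E^χ` as a holomorphic function -/
noncomputable def tgnEisHol (hm : m ≠ 0) (hχ : χ ∈ tgnX Γ m) : holH :=
  ⟨tgnEis Γ χ, tgnEis_mdiff hm hχ⟩

theorem tgnEisHol_ne_zero (hT : ModularGroup.T ∈ Γ) (hm : m ≠ 0) (hχ : χ ∈ tgnX Γ m) :
    tgnEisHol hm hχ ≠ 0 := by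
  intro h
  apply tgnEis_ne_zero hT hm hχ
  exact congrArg Subtype.val h

theorem tgnHolSL_eisHol (hm : m ≠ 0) (hχ : χ ∈ tgnX Γ m) (γ : Γ) :
    tdmHolSL (γ : SL(2, ℤ)) (tgnEisHol hm hχ)
      = algebraMap ℂ holH ((χ γ : ℂˣ) : ℂ) * (tdmDenomHol (γ : SL(2, ℤ)) * tgnEisHol hm hχ) := by
  apply Subtype.ext
  funext τ
  show tgnEis Γ χ ((γ : SL(2, ℤ)) • τ)
    = ((χ γ : ℂˣ) : ℂ) * (denom (γ : SL(2, ℤ)) τ ^ (4 : ℤ) * tgnEis Γ χ τ)
  rw [tgnEis_smul hχ γ τ]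
  ring

/-- `g_χ = E^χ / E^1` -/
noncomputable def tgnEisRatio (hm : m ≠ 0) (hχ : χ ∈ tgnX Γ m) : tdmMer :=
  tdmOfHol (tgnEisHol hm hχ) / tdmOfHol (tgnEisHol hm (one_mem (tgnX Γ m)))

theorem tgnEisRatio_ne_zero (hT : ModularGroup.T ∈ Γ) (hm : m ≠ 0) (hχ : χ ∈ tgnX Γ m) :
    tgnEisRatio hm hχ ≠ 0 := by
  apply div_ne_zero
  · exact fun h => tgnEisHol_ne_zero hT hm hχ (tdmOfHol_injective (h.trans (map_zero _).symm))
  · exact fun h => tgnEisHol_ne_zero hT hm (one_mem _)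
      (tdmOfHol_injective (h.trans (map_zero _).symm))

/-- **`g_χ` has character `χ`** -/
theorem tgnEisRatio_hasChar (hT : ModularGroup.T ∈ Γ) (hm : m ≠ 0) (hχ : χ ∈ tgnX Γ m) :
    tdmHasChar (Γ) (tgnEisRatio hm hχ) χ := by
  intro γ
  have hD : tdmOfHol (tdmDenomHol (γ : SL(2, ℤ))) ≠ 0 := fun h =>
    tdmDenomHol_ne_zero _ (tdmOfHol_injective (h.trans (map_zero _).symm))
  have hE1 : tdmOfHol (tgnEisHol hm (one_mem (tgnX Γ m))) ≠ 0 := fun h =>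
    tgnEisHol_ne_zero hT hm (one_mem _) (tdmOfHol_injective (h.trans (map_zero _).symm))
  rw [tgnEisRatio, map_div₀, tdmSL_ofHol, tdmSL_ofHol, tgnHolSL_eisHol hm hχ γ,
    tgnHolSL_eisHol hm (one_mem _) γ, MonoidHom.one_apply, Units.val_one, map_one, one_mul,
    map_mul, map_mul, map_mul, Algebra.smul_def, IsScalarTower.algebraMap_apply ℂ holH tdmMer]
  field_simp

/-- `g_χ ^ m` is a quotient of two modular forms of weight `4 m` -/
theorem tgnEisRatio_pow [Γ.FiniteIndex] (hm : m ≠ 0) (hχ : χ ∈ tgnX Γ m) :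
    tgnEisRatio hm hχ ^ m
      = tdmOfHol ⟨(tgnEisPow hm hχ : ℍ → ℂ), (tgnEisPow hm hχ).holo'⟩
        / tdmOfHol ⟨(tgnEisPow hm (one_mem (tgnX Γ m)) : ℍ → ℂ),
            (tgnEisPow hm (one_mem (tgnX Γ m))).holo'⟩ := by
  rw [tgnEisRatio, div_pow, ← map_pow, ← map_pow]
  rfl

end

end Fermat.Agent.T1G
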