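/-
T1G-AN (helper1), TG-MONO part 7: the monodromy isomorphism over `ℂ` for a general subgroup `Γ`
(kernel = `m`-th powers, surjectivity through the Eisenstein series with character); generic
version of `Lib/T1/Mono/PsiC.lean`.
-/
import Mathlib
import Fermat.Agent.Lib.T1G.Mono.Psi
import Fermat.Agent.Lib.T1G.Mono.EisChar

set_option autoImplicit false
set_option linter.unusedSectionVars false

namespace Fermat.Agent.T1G

open Complex Set Filter Topology Matrix MatrixGroups CongruenceSubgroup ModularCurve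
open UpperHalfPlane hiding I
open scoped Manifold Real
open Fermat.Agent.S24Lib (holH)
open Fermat.Agent.T1

/-! ### Finiteness of the character group -/

instance tgn_finite_X (Γ : Subgroup SL(2, ℤ)) [Group.FG Γ] (m : ℕ) [NeZero m] :
    Finite (tgnX Γ m) := by
  classical
  obtain ⟨S, hS⟩ := (Group.fg_iff (G := Γ)).mp inferInstance
  obtain ⟨S, hS, hfin⟩ := S, hS.1, hS.2
  have : Finite S := hfin.to_subtype
  let f : tgnX Γ m → (S → rootsOfUnity m ℂ) := fun χ s =>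
    ⟨(χ : Γ →* ℂˣ) s, by
      rw [_root_.mem_rootsOfUnity]
      exact χ.2.1 s⟩
  have hf : Function.Injective f := by
    intro χ ψ h
    apply Subtype.ext
    apply MonoidHom.eq_of_eqOn_dense (s := S)
    · exact hS
    · intro s hs
      have := congrFun h ⟨s, hs⟩
      exact congrArg Subtype.val this
  exact Finite.of_injective f hf

/-! ### The analytic dictionary over `ℂ` -/

/-- the additional analytic inputs over `ℂ` -/
structure TgdDictC (Γ : Subgroup SL(2, ℤ)) (h : ℕ) (F₀ : IntermediateField ℚ (LaurentSeries ℚ))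
    extends TgdDict ℂ Γ h F₀ where
  /-- quotients of modular forms of equal weight are in the function field -/
  automorphic : ∀ (k : ℤ) (A B : ModularForm Γ k), B ≠ 0 →
    ∃ z : ↥(laurentBaseChange ℂ F₀),
      fn z = tdmOfHol ⟨(A : ℍ → ℂ), A.holo'⟩ / tdmOfHol ⟨(B : ℍ → ℂ), B.holo'⟩
  /-- invariant roots of elements of the function field are in the function field -/
  root_mem : ∀ (g : tdmMer) (m : ℕ), m ≠ 0 → tdmIsInv Γ g →
    (∃ z : ↥(laurentBaseChange ℂ F₀), fn z = g ^ m) →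
    ∃ z : ↥(laurentBaseChange ℂ F₀), fn z = g

namespace TgdDictC

variable {Γ : Subgroup SL(2, ℤ)} {h : ℕ} [NeZero h] {F₀ : IntermediateField ℚ (LaurentSeries ℚ)}
  (D : TgdDictC Γ h F₀)

/-- **the kernel of `Ψ` over `ℂ` consists of the `m`-th powers** -/
theorem psi_ker {m : ℕ} (hm : m ≠ 0) (y : tgWsub ℂ F₀ m) (hy : D.toTgdDict.psi hm y = 1) :
    y ∈ tgPowSub ℂ F₀ m := by
  obtain ⟨g, hg, hinv⟩ := (D.toTgdDict.psi_eq_one_iff hm y).mp hy
  obtain ⟨z, hz⟩ := D.root_mem g m hm hinv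
    ⟨((y : (↥(laurentBaseChange ℂ F₀))ˣ) : ↥(laurentBaseChange ℂ F₀)), hg.symm⟩
  have hzy : z ^ m = ((y : (↥(laurentBaseChange ℂ F₀))ˣ) : ↥(laurentBaseChange ℂ F₀)) := by
    apply D.toTgdDict.fn_injective
    rw [map_pow, hz, hg]
  have hz0 : z ≠ 0 := by
    rintro rfl
    rw [zero_pow hm] at hzy
    exact (y : (↥(laurentBaseChange ℂ F₀))ˣ).ne_zero hzy.symm
  rw [mem_tgPowSub]
  refine ⟨Units.mk0 z hz0, ?_⟩
  apply Units.ext
  rw [Units.val_pow_eq_pow_val, Units.val_mk0]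
  exact hzy

theorem psi_ker_eq {m : ℕ} (hm : m ≠ 0) : (D.toTgdDict.psi hm).ker = tgPowSub ℂ F₀ m := by
  ext y
  rw [MonoidHom.mem_ker]
  constructor
  · exact D.psi_ker hm y
  · intro hy
    obtain ⟨t, ht⟩ := mem_tgPowSub.mp hy
    exact D.toTgdDict.psi_pow hm y t ht.symm

/-- **`Ψ` over `ℂ` is surjective** -/
theorem psi_surjective [Γ.FiniteIndex] {m : ℕ} (hm : m ≠ 0) :
    Function.Surjective (D.toTgdDict.psi hm) := by
  rintro ⟨χ, hχ⟩
  have hT : ModularGroup.T ∈ Γ := D.grp.T_mem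
  have hB : tgnEisPow hm (one_mem (tgnX Γ m)) ≠ 0 := by
    intro h0
    have h1 : (tgnEisPow hm (one_mem (tgnX Γ m)) : ℍ → ℂ) = 0 := by
      rw [h0]; rfl
    rw [coe_tgnEisPow] at h1
    exact tgnEis_ne_zero hT hm (one_mem (tgnX Γ m)) (pow_eq_zero_iff hm |>.mp h1)
  obtain ⟨z, hz⟩ := D.automorphic _ (tgnEisPow hm hχ) (tgnEisPow hm (one_mem (tgnX Γ m))) hB
  rw [← tgnEisRatio_pow hm hχ] at hz
  have hz0 : z ≠ 0 := by
    rintro rfl
    rw [map_zero] at hz
    exact pow_ne_zero m (tgnEisRatio_ne_zero hT hm hχ) hz.symm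
  have hfn : tgnEisRatio hm hχ ^ m
      = D.toTgdDict.fn ((Units.mk0 z hz0 : (↥(laurentBaseChange ℂ F₀))ˣ) :
          ↥(laurentBaseChange ℂ F₀)) := by
    rw [Units.val_mk0, hz]
  have hmem : Units.mk0 z hz0 ∈ tgWsub ℂ F₀ m :=
    D.toTgdDict.mem_of_char hm _ hfn (tgnEisRatio_hasChar hT hm hχ) hχ
  refine ⟨⟨Units.mk0 z hz0, hmem⟩, ?_⟩
  apply Subtype.ext
  exact D.toTgdDict.psiChar_eq hm ⟨_, hmem⟩ hfn (tgnEisRatio_hasChar hT hm hχ)

/-- **the monodromy isomorphism over `ℂ`** -/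
noncomputable def psiEquiv [Γ.FiniteIndex] {m : ℕ} (hm : m ≠ 0) :
    tgWsub ℂ F₀ m ⧸ tgPowSub ℂ F₀ m ≃* tgnX Γ m :=
  (QuotientGroup.quotientMulEquivOfEq (D.psi_ker_eq hm).symm).trans
    (QuotientGroup.quotientKerEquivOfSurjective _ (D.psi_surjective hm))

include D in
theorem finite_quotient [Γ.FiniteIndex] [Group.FG Γ] {m : ℕ} [NeZero m] :
    Finite (tgWsub ℂ F₀ m ⧸ tgPowSub ℂ F₀ m) :=
  Finite.of_equiv _ (D.psiEquiv (NeZero.ne m)).symm.toEquiv

end TgdDictC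

end Fermat.Agent.T1G
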