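/-
T1G-AN (helper1), TG-MONO part 8: descent of the monodromy isomorphism from `ℂ` to `ℚ̄` (generic
version of `Lib/T1/Mono/PsiK.lean`).
-/
import Mathlib
import Fermat.Agent.Lib.T1G.Mono.PsiC

set_option autoImplicit false
set_option linter.unusedSectionVars false

namespace Fermat.Agent.T1G

open Complex Set Filter Topology Matrix MatrixGroups CongruenceSubgroup ModularCurve
open UpperHalfPlane hiding I
open scoped Manifold Real
open Fermat.Agent.S24Lib (holH)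
open Fermat.Agent.S24Lib
open Fermat.Agent.T1

local notation "Kbar" => AlgebraicClosure ℚ

/-- **descent data** between the function fields of `X₀(N)` over `ℚ̄` and over `ℂ` -/
structure TgdDescent {Γ : Subgroup SL(2, ℤ)} {h : ℕ} {F₀ : IntermediateField ℚ (LaurentSeries ℚ)}
    (DK : TgdDict Kbar Γ h F₀) (DC : TgdDictC Γ h F₀) where
  /-- base change of coefficients -/
  bc : ↥(laurentBaseChange Kbar F₀) →+* ↥(laurentBaseChange ℂ F₀)
  fn_bc : ∀ y, DC.toTgdDict.fn (bc y) = DK.fn y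
  /-- injectivity modulo `m`-th powers -/
  pow_desc : ∀ (m : ℕ), m ≠ 0 → ∀ y : ↥(laurentBaseChange Kbar F₀),
    (∃ z : ↥(laurentBaseChange ℂ F₀), bc y = z ^ m) → ∃ t : ↥(laurentBaseChange Kbar F₀), y = t ^ m
  /-- surjectivity modulo `m`-th powers -/
  surj : ∀ (m : ℕ), m ≠ 0 → Finite (tgWsub ℂ F₀ m ⧸ tgPowSub ℂ F₀ m) →
    ∀ z : (↥(laurentBaseChange ℂ F₀))ˣ, z ∈ tgWsub ℂ F₀ m →
      ∃ (y : ↥(laurentBaseChange Kbar F₀)) (t : ↥(laurentBaseChange ℂ F₀)), t ≠ 0 ∧ bc y = z * t ^ m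

namespace TgdDescent

variable {Γ : Subgroup SL(2, ℤ)} [Γ.FiniteIndex] {h : ℕ} [NeZero h]
  {F₀ : IntermediateField ℚ (LaurentSeries ℚ)}
  {DK : TgdDict Kbar Γ h F₀} {DC : TgdDictC Γ h F₀} (E : TgdDescent DK DC)

/-- base change on units -/
noncomputable def bcU : (↥(laurentBaseChange Kbar F₀))ˣ →* (↥(laurentBaseChange ℂ F₀))ˣ :=
  Units.map (E.bc : ↥(laurentBaseChange Kbar F₀) →* ↥(laurentBaseChange ℂ F₀))

theorem bcU_coe (y : (↥(laurentBaseChange Kbar F₀))ˣ) :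
    ((E.bcU y : (↥(laurentBaseChange ℂ F₀))ˣ) : ↥(laurentBaseChange ℂ F₀))
      = E.bc (y : ↥(laurentBaseChange Kbar F₀)) := rfl

theorem fn_bcU (y : (↥(laurentBaseChange Kbar F₀))ˣ) :
    DC.toTgdDict.fn ((E.bcU y : (↥(laurentBaseChange ℂ F₀))ˣ) : ↥(laurentBaseChange ℂ F₀))
      = DK.fn (y : ↥(laurentBaseChange Kbar F₀)) := by
  rw [bcU_coe, E.fn_bc]

/-- base change preserves and reflects the Kummer groups -/
theorem mem_iff {m : ℕ} (hm : m ≠ 0) (y : (↥(laurentBaseChange Kbar F₀))ˣ) :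
    y ∈ tgWsub Kbar F₀ m ↔ E.bcU y ∈ tgWsub ℂ F₀ m := by
  constructor
  · intro hy
    obtain ⟨g, hg⟩ := DK.exists_root hm hy
    have h1 := DK.psiChar_spec hm ⟨y, hy⟩ hg
    have h2 := DK.psiChar_mem hm ⟨y, hy⟩
    exact DC.toTgdDict.mem_of_char hm _ (hg.trans (E.fn_bcU y).symm) h1 h2
  · intro hy
    obtain ⟨g, hg⟩ := DC.toTgdDict.exists_root hm hy
    have h1 := DC.toTgdDict.psiChar_spec hm ⟨_, hy⟩ hg
    have h2 := DC.toTgdDict.psiChar_mem hm ⟨_, hy⟩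
    exact DK.mem_of_char hm _ (hg.trans (E.fn_bcU y)) h1 h2

/-- `Ψ` commutes with base change -/
theorem psi_bc {m : ℕ} (hm : m ≠ 0) (y : tgWsub Kbar F₀ m) :
    DC.toTgdDict.psi hm ⟨E.bcU y.1, (E.mem_iff hm y.1).mp y.2⟩ = DK.psi hm y := by
  obtain ⟨g, hg⟩ := DK.exists_root hm y.2
  apply Subtype.ext
  rw [TgdDict.psi_coe, TgdDict.psi_coe]
  apply DC.toTgdDict.psiChar_eq hm _ (g := g)
  · exact hg.trans (E.fn_bcU y.1).symm
  · exact DK.psiChar_spec hm y hg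

include E in
/-- **the kernel of `Ψ` over `ℚ̄` consists of the `m`-th powers** -/
theorem psi_ker {m : ℕ} (hm : m ≠ 0) (y : tgWsub Kbar F₀ m) (h : DK.psi hm y = 1) :
    y ∈ tgPowSub Kbar F₀ m := by
  have h1 : DC.toTgdDict.psi hm ⟨E.bcU y.1, (E.mem_iff hm y.1).mp y.2⟩ = 1 := by
    rw [E.psi_bc hm y, h]
  obtain ⟨z, hz⟩ := mem_tgPowSub.mp (DC.psi_ker hm _ h1)
  obtain ⟨t, ht⟩ := E.pow_desc m hm ((y : (↥(laurentBaseChange Kbar F₀))ˣ) : ↥(laurentBaseChange Kbar F₀))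
    ⟨(z : ↥(laurentBaseChange ℂ F₀)), by
      have := congrArg (fun u : (↥(laurentBaseChange ℂ F₀))ˣ => (u : ↥(laurentBaseChange ℂ F₀))) hz
      simp only [Units.val_pow_eq_pow_val] at this
      rw [this]
      rfl⟩
  have ht0 : t ≠ 0 := by
    rintro rfl
    rw [zero_pow hm] at ht
    exact (y : (↥(laurentBaseChange Kbar F₀))ˣ).ne_zero ht
  rw [mem_tgPowSub]
  refine ⟨Units.mk0 t ht0, ?_⟩
  apply Units.ext
  rw [Units.val_pow_eq_pow_val, Units.val_mk0]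
  exact ht.symm

include E in
theorem psi_ker_eq {m : ℕ} (hm : m ≠ 0) : (DK.psi hm).ker = tgPowSub Kbar F₀ m := by
  ext y
  rw [MonoidHom.mem_ker]
  constructor
  · exact E.psi_ker hm y
  · intro h
    obtain ⟨t, ht⟩ := mem_tgPowSub.mp h
    exact DK.psi_pow hm y t ht.symm

include E in
/-- **`Ψ` over `ℚ̄` is surjective** -/
theorem psi_surjective {m : ℕ} (hm : m ≠ 0) : Function.Surjective (DK.psi hm) := by
  intro χ
  have : NeZero m := ⟨hm⟩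
  obtain ⟨z, hz⟩ := DC.psi_surjective hm χ
  obtain ⟨y, t, ht0, hyt⟩ := E.surj m hm DC.finite_quotient z.1 z.2
  have hy0 : y ≠ 0 := by
    rintro rfl
    rw [map_zero] at hyt
    have h1 : ((z : (↥(laurentBaseChange ℂ F₀))ˣ) : ↥(laurentBaseChange ℂ F₀)) ≠ 0 := Units.ne_zero _
    exact mul_ne_zero h1 (pow_ne_zero m ht0) hyt.symm
  have hbc : E.bcU (Units.mk0 y hy0) = (z : (↥(laurentBaseChange ℂ F₀))ˣ) * (Units.mk0 t ht0) ^ m := by
    apply Units.ext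
    rw [bcU_coe, Units.val_mk0, hyt, Units.val_mul, Units.val_pow_eq_pow_val, Units.val_mk0]
  have hpow : (Units.mk0 t ht0) ^ m ∈ tgWsub ℂ F₀ m := by
    intro P
    rw [Units.val_pow_eq_pow_val, ← zpow_natCast, AlgebraicCurve.Place.ord_zpow]
    exact dvd_mul_right _ _
  have hmemC : E.bcU (Units.mk0 y hy0) ∈ tgWsub ℂ F₀ m := by
    rw [hbc]
    exact (tgWsub ℂ F₀ m).mul_mem z.2 hpow
  have hmem : Units.mk0 y hy0 ∈ tgWsub Kbar F₀ m := (E.mem_iff hm _).mpr hmemC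
  refine ⟨⟨Units.mk0 y hy0, hmem⟩, ?_⟩
  rw [← E.psi_bc hm ⟨_, hmem⟩, ← hz]
  have h2 : (⟨E.bcU (Units.mk0 y hy0), hmemC⟩ : tgWsub ℂ F₀ m) = z * ⟨(Units.mk0 t ht0) ^ m, hpow⟩ :=
    Subtype.ext hbc
  rw [h2, map_mul, DC.toTgdDict.psi_pow hm ⟨(Units.mk0 t ht0) ^ m, hpow⟩ (Units.mk0 t ht0) rfl,
    mul_one]

/-- **the monodromy isomorphism over `ℚ̄`** -/
noncomputable def psiEquiv {m : ℕ} (hm : m ≠ 0) :
    tgWsub Kbar F₀ m ⧸ tgPowSub Kbar F₀ m ≃* tgnX Γ m :=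
  (QuotientGroup.quotientMulEquivOfEq (E.psi_ker_eq hm).symm).trans
    (QuotientGroup.quotientKerEquivOfSurjective _ (E.psi_surjective hm))

theorem psiEquiv_mk {m : ℕ} (hm : m ≠ 0) (y : tgWsub Kbar F₀ m) :
    E.psiEquiv hm (QuotientGroup.mk y) = DK.psi hm y := rfl

end TgdDescent

end Fermat.Agent.T1G
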