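/-
T1G-AN (helper1), TG-MONO part 15: glue for the Tate module package of `Γ₁(M)`:
* `tgz_hemb`: the `ℚ̄`-rational `q_M`-expansion of `ρ(γ)(iso y)` in the analytic model
  `tgdModelOne ℚ̄ M` is the expansion of `y` at the cusp `γ ∞` computed by the Galois package
  `tgGalois_an ℚ̄ M` (the extra input of TG-KRON part C);
* `tgz_barOK`, `tgz_K12`: (K1), (K2) and the Gauss normal form at every place of `ℚ̄` prime to `M`
  (TG-LEVEL + AN-GENUS for the analytic Galois package).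
-/
import Mathlib
import Fermat.Agent.Lib.T1G.GMod.ModelOne
import Fermat.Agent.Lib.T1G.GMod.GenusFull
import Fermat.Agent.Lib.T1G.Model.BarOKPlace
import Fermat.Agent.Lib.T1G.Level.K12
import Fermat.Agent.Lib.T1G.Kron.Model

set_option autoImplicit false
set_option linter.unusedSectionVars false
set_option linter.style.haveILetI false
set_option linter.unusedVariables false
set_option synthInstance.maxHeartbeats 400000

namespace Fermat.Agent.T1G

open Fermat.Agent.S24Lib Fermat.Agent.T1 ModularCurve Fermat.Agent.TW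
open UpperHalfPlane Matrix MatrixGroups CongruenceSubgroup
attribute [local instance] KMod.charZero_k

local notation "Kbar" => AlgebraicClosure ℚ
local notation "GQ" => (AlgebraicClosure ℚ ≃ₐ[ℚ] AlgebraicClosure ℚ)

variable (M : ℕ) [NeZero M]

/-- **the expansions at the cusps `γ ∞`**: the `ℚ̄`-rational `q_M`-expansion of `ρ(γ)(iso y)` is
`tgEmb γ y` of the analytic Galois package -/
theorem tgz_hemb (hM : 6 ≤ M) (γ : SL(2, ℤ)) (y : ↥(laurentBaseChange Kbar (tgOneQ M)))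
    (hy : (y : LaurentSeries Kbar) ∈ TgOne Kbar M (tgxZeta Kbar M)) :
    tgxFieldQk (tgdModelOne Kbar M hM).G
        (tgxRep (tgdModelOne Kbar M hM).G γ ((tgdModelOne Kbar M hM).toF y))
      = (tgGalois_an Kbar M).tgEmb γ ⟨(y : LaurentSeries Kbar), hy⟩ := by
  have h1 : tgOneIncl Kbar M (tgxZeta Kbar M) ⟨(y : LaurentSeries Kbar), hy⟩
      = tgxFullIso Kbar M (tgxOneHom Kbar M y) := by
    apply Subtype.ext
    rw [tgxFullIso_tgxOneHom]
    rfl
  rw [TgGalois.tgEmb_apply, h1]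
  show _ = ((tgxFullRho Kbar M γ (tgxFullIso Kbar M (tgxOneHom Kbar M y)) :
    ↥(tgFull Kbar M (tgxZeta Kbar M))) : LaurentSeries Kbar)
  rw [tgxFullRho_iso, coe_tgxFullIso]
  rfl

/-- the `F̄`-side inputs of (K1) at a place prime to `M` -/
theorem tgz_barOK (𝔓 : FFPlace) (hM : 6 ≤ M) (h49 : 4 ∣ M ∨ 9 ∣ M) (hpM : ¬ 𝔓.p ∣ M) :
    TgnBarOK Kbar (IsLocalRing.ResidueField ↥𝔓.P) M (tgxZeta Kbar M)
      (tglZetaBar 𝔓 (tgxZeta_isPrimitiveRoot Kbar M)) :=
  tgn_barOK_place 𝔓 (tgGalois_an Kbar M)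
    (tgxCoverFull (tgGalois_an Kbar M) (tgxFull Kbar M) (tgxFullIso Kbar M)
      (fun γ x => tgxFullRho_iso Kbar M γ x) (tgxFullIso_jL Kbar M))
    (tglGalBar 𝔓 (tgxZeta_isPrimitiveRoot Kbar M) (tgGalois_an Kbar M) hpM (by omega))
    (tgxZeta_isPrimitiveRoot Kbar M)
    (tglZetaBar_isPrimitiveRoot 𝔓 (tgxZeta_isPrimitiveRoot Kbar M) hpM) hM h49 hpM

/-- **(K1) + (K2) and the Gauss normal form** for `F₀ = tgOneQ M` at every place of `ℚ̄` over a
prime `q ∤ M`, for Kummer exponents prime to `q` -/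
theorem tgz_K12 (hM : 6 ≤ M) (h49 : 4 ∣ M ∨ 9 ∣ M) {q : ℕ} (hq : q.Prime) (hqM : ¬ q ∣ M)
    (A : ValuationSubring Kbar) (hA : A.LiesOverPrime q) {m : ℕ} (hm : Nat.Coprime m q)
    (hm0 : m ≠ 0) : TgkK12 (tgOneQ M) m A ∧ TgkNormal (tgOneQ M) A := by
  set 𝔓 : FFPlace := ⟨A, q, hq, hA⟩ with h𝔓
  have hpM : ¬ 𝔓.p ∣ M := hqM
  exact ⟨tgl_K12 𝔓 (tgxZeta_isPrimitiveRoot Kbar M) (tgGalois_an Kbar M) hpM hM
      (tgz_barOK M 𝔓 hM h49 hpM) hm hm0,
    tgl_normal 𝔓 (tgxZeta_isPrimitiveRoot Kbar M) (tgGalois_an Kbar M) hpM hM⟩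

end Fermat.Agent.T1G
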