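/-
T1G-AN (helper1), TG-MONO part 14: **the Hecke action of the full Hecke algebra `tgHeckeAlg M ∅` on
the lattice** `L = parabolicHoms ℤ Γ₁(M) ℤ` and on the Tate module
`T = parabolicHoms ℤ_p Γ₁(M) ℤ_p = ℤ_p ⊗ L` (given the surjectivity of the Eichler–Shimura pairing):
`tgzHeckeL`, `tgzHeckeP`, their values on the generators `T_l`, `U_q`, `⟨d⟩` (the abstract Hecke
operators of the coset systems `tgmSysT`, `tgmSysU`, `tgmSysD`), and the inputs (H5), (H6) of the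
Tate module package (multiplicity two, non-scalar involution) from TG-MULT.
-/
import Mathlib
import Fermat.Agent.Lib.T1G.ES.LatticeHecke
import Fermat.Agent.Lib.T1G.Mult.Cusp

set_option autoImplicit false
set_option linter.unusedSectionVars false
set_option linter.style.haveILetI false

namespace Fermat.Agent.T1G

open Matrix MatrixGroups CongruenceSubgroup ModularCurve ModularCurve.Period
open Fermat.Agent.T1 Fermat.Agent.ES Fermat.Agent.DS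
open scoped TensorProduct

noncomputable section

variable {M : ℕ} [NeZero M] (hsurj : Function.Surjective (tgePair (Gamma1 M)))

/-- the generators of the full Hecke algebra preserve the lattice -/
theorem tgz_lat_gens : ∀ g ∈ tgHeckeGens M (∅ : Set ℕ),
    ∃ s, TdmLat (tgePhi (Gamma1 M) hsurj) g s := by
  rintro g ((⟨p, hp, hpM, -, rfl⟩ | ⟨p, hp, hpM, -, rfl⟩) | ⟨d, rfl⟩)
  · exact ⟨_, tgeLat_T hsurj hp hpM⟩
  · exact ⟨_, tgeLat_U hsurj hpM hp.ne_zero⟩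
  · exact ⟨_, tgeLat_D hsurj d⟩

/-- every element of the full Hecke algebra preserves the lattice -/
theorem tgz_lat (t : tgHeckeAlg M (∅ : Set ℕ)) :
    ∃ s, TdmLat (tgePhi (Gamma1 M) hsurj) (tgHeckeAct M ∅ t) s :=
  tdm_exists_lat _ (tgz_lat_gens hsurj) t.1 (by rw [← tgHeckeAlg_eq]; exact t.2)

/-- **the Hecke action on the lattice** `L = parabolicHoms ℤ Γ₁(M) ℤ` -/
def tgzHeckeL : tgHeckeAlg M (∅ : Set ℕ) →+* Module.End ℤ ↥(tgeL (Gamma1 M)) :=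
  tdmHeckeAbs (Φ := tgePhi (Gamma1 M) hsurj) (tgHeckeAct M ∅) (tgz_lat hsurj)

/-- `tgzHeckeL t ⊗ ℂ` corresponds to `t × t` under `Φ` -/
theorem tgzHeckeL_spec (t : tgHeckeAlg M (∅ : Set ℕ)) (f g : CuspForm (Gamma1 M) 2) :
    (tgzHeckeL hsurj t).baseChange ℂ (tgePhi (Gamma1 M) hsurj (f, g))
      = tgePhi (Gamma1 M) hsurj ((t : Module.End ℂ (CuspForm (Gamma1 M) 2)) f,
          (t : Module.End ℂ (CuspForm (Gamma1 M) 2)) g) :=
  tdmHeckeAbs_spec (Φ := tgePhi (Gamma1 M) hsurj) (tgHeckeAct M ∅) (tgz_lat hsurj) t f g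

theorem tgzHeckeL_T {l : ℕ} (hl : l.Prime) (hlM : ¬ l ∣ M) :
    tgzHeckeL hsurj (tgT hl hlM (Set.notMem_empty l)) = (tgmSysT M hl hlM).homPar ℤ ℤ :=
  tdmHeckeAbs_eq (Φ := tgePhi (Gamma1 M) hsurj) (tgHeckeAct M ∅) (tgz_lat hsurj)
    (a := tgT hl hlM (Set.notMem_empty l)) (tgeLat_T hsurj hl hlM)

theorem tgzHeckeL_U {q : ℕ} (hq : q.Prime) (hqM : q ∣ M) :
    tgzHeckeL hsurj (tgU hq hqM (Set.notMem_empty q)) = (tgmSysU M hqM hq.ne_zero).homPar ℤ ℤ :=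
  tdmHeckeAbs_eq (Φ := tgePhi (Gamma1 M) hsurj) (tgHeckeAct M ∅) (tgz_lat hsurj)
    (a := tgU hq hqM (Set.notMem_empty q)) (tgeLat_U hsurj hqM hq.ne_zero)

theorem tgzHeckeL_D (d : (ZMod M)ˣ) :
    tgzHeckeL hsurj (tgDia M ∅ d) = (tgmSysD M d).homPar ℤ ℤ :=
  tdmHeckeAbs_eq (Φ := tgePhi (Gamma1 M) hsurj) (tgHeckeAct M ∅) (tgz_lat hsurj)
    (a := tgDia M ∅ d) (tgeLat_D hsurj d)

/-! ### The Hecke action on the Tate module -/

variable (p : ℕ) [hp : Fact p.Prime]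

set_option quotPrecheck false in
local notation "TT" => ↥(parabolicHoms ℤ_[p] (Gamma1 M) ℤ_[p])

/-- the Hecke action on `T = parabolicHoms ℤ_p Γ₁(M) ℤ_p`: base change of the action on the
lattice -/
def tgzHeckeP : tgHeckeAlg M (∅ : Set ℕ) →+* Module.End ℤ_[p] TT :=
  ((tgeBC (Gamma1 M) ℤ_[p]).conjRingEquiv :
      Module.End ℤ_[p] (ℤ_[p] ⊗[ℤ] ↥(tgeL (Gamma1 M))) →+* _).comp
    (((Module.End.baseChangeHom ℤ ℤ_[p] ↥(tgeL (Gamma1 M)) :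
        Module.End ℤ ↥(tgeL (Gamma1 M)) →ₐ[ℤ] _) :
      Module.End ℤ ↥(tgeL (Gamma1 M)) →+* _).comp (tgzHeckeL hsurj))

theorem tgzHeckeP_apply (t : tgHeckeAlg M (∅ : Set ℕ)) (φ : TT) :
    tgzHeckeP hsurj p t φ
      = tgeBC (Gamma1 M) ℤ_[p] ((tgzHeckeL hsurj t).baseChange ℤ_[p]
          ((tgeBC (Gamma1 M) ℤ_[p]).symm φ)) := rfl

theorem tgzHeckeP_he (t : tgHeckeAlg M (∅ : Set ℕ)) (x : ℤ_[p] ⊗[ℤ] ↥(tgeL (Gamma1 M))) :
    tgeBC (Gamma1 M) ℤ_[p] ((tgzHeckeL hsurj t).baseChange ℤ_[p] x)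
      = tgzHeckeP hsurj p t (tgeBC (Gamma1 M) ℤ_[p] x) := by
  rw [tgzHeckeP_apply, LinearEquiv.symm_apply_apply]

theorem tgzHeckeP_T {l : ℕ} (hl : l.Prime) (hlM : ¬ l ∣ M) (φ : TT) :
    ((tgzHeckeP hsurj p (tgT hl hlM (Set.notMem_empty l)) φ : TT) : Additive (Gamma1 M) →+ ℤ_[p])
      = (tgmSysT M hl hlM).hom ℤ_[p] (φ : Additive (Gamma1 M) →+ ℤ_[p]) := by
  rw [tgzHeckeP_apply, tgzHeckeL_T, tgeBC_homPar, LinearEquiv.apply_symm_apply,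
    tdmCosetSys.homPar_coe]

theorem tgzHeckeP_U {q : ℕ} (hq : q.Prime) (hqM : q ∣ M) (φ : TT) :
    ((tgzHeckeP hsurj p (tgU hq hqM (Set.notMem_empty q)) φ : TT) : Additive (Gamma1 M) →+ ℤ_[p])
      = (tgmSysU M hqM hq.ne_zero).hom ℤ_[p] (φ : Additive (Gamma1 M) →+ ℤ_[p]) := by
  rw [tgzHeckeP_apply, tgzHeckeL_U, tgeBC_homPar, LinearEquiv.apply_symm_apply,
    tdmCosetSys.homPar_coe]

theorem tgzHeckeP_D (d : (ZMod M)ˣ) (φ : TT) :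
    ((tgzHeckeP hsurj p (tgDia M ∅ d) φ : TT) : Additive (Gamma1 M) →+ ℤ_[p])
      = (tgmSysD M d).hom ℤ_[p] (φ : Additive (Gamma1 M) →+ ℤ_[p]) := by
  rw [tgzHeckeP_apply, tgzHeckeL_D, tgeBC_homPar, LinearEquiv.apply_symm_apply,
    tdmCosetSys.homPar_coe]

/-- **(H5)**: the eigen-lattices of the Tate module have rank two -/
theorem tgz_finrank_teEigen (𝒪 : Type) [CommRing 𝒪] [IsDomain 𝒪] [CharZero 𝒪] [Algebra ℤ_[p] 𝒪]
    (lam : tgHeckeAlg M (∅ : Set ℕ) →+* 𝒪) :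
    Module.finrank 𝒪 ↥(teEigen (tgzHeckeP hsurj p) lam) = 2 :=
  tgk_finrank_teEigen (tgzHeckeL hsurj) (tgePhi (Gamma1 M) hsurj) (tgzHeckeL_spec hsurj)
    (tgeBC (Gamma1 M) ℤ_[p]) (tgzHeckeP hsurj p) (tgzHeckeP_he hsurj p) lam

/-- **(H6)**: an endomorphism of the Tate module acting as `φ ↦ -φ ∘ J` is not a scalar on any
eigen-lattice -/
theorem tgz_exists_not_scalar (w : Module.End ℤ_[p] TT)
    (hw : ∀ φ : TT, ((w φ : TT) : Additive (Gamma1 M) →+ ℤ_[p])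
      = -(tgeInv (Gamma1 M) ℤ_[p] ℤ_[p] (φ : Additive (Gamma1 M) →+ ℤ_[p])))
    (𝒪 : Type) [CommRing 𝒪] [IsDomain 𝒪] [CharZero 𝒪] [Algebra ℤ_[p] 𝒪]
    (lam : tgHeckeAlg M (∅ : Set ℕ) →+* 𝒪) :
    ∃ v ∈ teEigen (tgzHeckeP hsurj p) lam, ∀ z : 𝒪, w.baseChange 𝒪 v ≠ z • v := by
  refine tgk_exists_not_scalar_teEigen_neg (tgzHeckeL hsurj) (tgePhi (Gamma1 M) hsurj)
    (tgzHeckeL_spec hsurj) (tgeW (Gamma1 M) ℤ ℤ) (tgeW_spec (Gamma1 M) hsurj)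
    (tgeBC (Gamma1 M) ℤ_[p]) (tgzHeckeP hsurj p) (tgzHeckeP_he hsurj p) lam w ?_
  intro x
  apply Subtype.ext
  rw [hw, LinearMap.baseChange_neg, LinearMap.neg_apply, map_neg, tgeBC_tgeW]
  rfl

end

end Fermat.Agent.T1G
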