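/-
T1G-AN (helper1), TG-MONO part 9: Hecke operators and complex conjugation on functions versus
characters, for a general subgroup `Γ` (generic version of `Lib/T1/Mono/HeckeFun.lean`; the
product over a coset system `tdmCosetSys.prodFn` is generic and imported).
-/
import Mathlib
import Fermat.Agent.Lib.T1.Mono.HeckeFun
import Fermat.Agent.Lib.T1G.Mono.Psi
import Fermat.Agent.Lib.T1G.ES.Conj

set_option autoImplicit false
set_option linter.unusedSectionVars false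

namespace Fermat.Agent.T1G

open Complex Set Filter Topology Matrix MatrixGroups CongruenceSubgroup ModularCurve
open UpperHalfPlane hiding I
open scoped Manifold Real ComplexConjugate
open Fermat.Agent.S24Lib (holH)
open ModularCurve.Period (jConjSL jConjSL_jConjSL)
open Fermat.Agent.T1

/-- the abstract Hecke operator of a coset system of `Γ` preserves the character groups `X_m` -/
theorem tgn_homMul_mem_tgnX {Γ : Subgroup SL(2, ℤ)} {m : ℕ} {ι : Type} [Fintype ι]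
    (S : tdmCosetSys Γ ι) {χ : Γ →* ℂˣ} (hχ : χ ∈ tgnX Γ m) :
    S.homMul ℂˣ χ ∈ tgnX Γ m := by
  obtain ⟨h1, h2, h3⟩ := hχ
  refine ⟨fun γ => ?_, fun γ hγ => S.homMul_parabolic h2 γ hγ, fun γ hγ => S.homMul_finOrder h3 γ hγ⟩
  rw [S.homMul_apply, ← Finset.prod_pow]
  exact Finset.prod_eq_one fun i _ => h1 _

/-! ### Equivariance of the monodromy map -/

section Generic

variable {𝕜 : Type} [Field 𝕜] [Algebra 𝕜 ℂ] [Algebra ℚ 𝕜] {Γ : Subgroup SL(2, ℤ)} {h : ℕ}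
  [NeZero h] {F₀ : IntermediateField ℚ (LaurentSeries ℚ)} (D : TgdDict 𝕜 Γ h F₀)

/-- **Hecke equivariance**: if the function of `z` is `∏ i, Y ∘ α_i`, `Y` the function of
`y ∈ tgWsub 𝕜 F₀ m`, then `z ∈ tgWsub 𝕜 F₀ m` and `Ψ z = S.homMul (Ψ y)`. -/
theorem TgdDict.psi_hecke {ι : Type} [Fintype ι] (S : tdmCosetSys Γ ι) {m : ℕ}
    (hm : m ≠ 0) (y : tgWsub 𝕜 F₀ m) (z : (↥(laurentBaseChange 𝕜 F₀))ˣ)
    (hz : D.fn (z : ↥(laurentBaseChange 𝕜 F₀))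
      = S.prodFn (D.fn ((y : (↥(laurentBaseChange 𝕜 F₀))ˣ) : ↥(laurentBaseChange 𝕜 F₀)))) :
    ∃ hz' : z ∈ tgWsub 𝕜 F₀ m,
      ((D.psi hm ⟨z, hz'⟩ : tgnX Γ m) : Γ →* ℂˣ)
        = S.homMul ℂˣ ((D.psi hm y : tgnX Γ m) : Γ →* ℂˣ) := by
  obtain ⟨g, hg⟩ := D.exists_root hm y.2
  have hχ := D.psiChar_spec hm y hg
  have hG : (S.prodFn g) ^ m = D.fn (z : ↥(laurentBaseChange 𝕜 F₀)) := by
    rw [hz, ← map_pow, hg]
  have hGχ := S.prodFn_hasChar hχ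
  have hmem := tgn_homMul_mem_tgnX S (D.psiChar_mem hm y)
  have hz' : z ∈ tgWsub 𝕜 F₀ m := D.mem_of_char hm z hG hGχ hmem
  refine ⟨hz', ?_⟩
  rw [D.psi_coe, D.psi_coe]
  exact D.psiChar_eq hm ⟨z, hz'⟩ hG hGχ

end Generic

/-! ### Complex conjugation -/

section Conj

variable (Γ : Subgroup SL(2, ℤ)) [TgeJStable Γ]

/-- `χ ↦ conj ∘ χ ∘ J` on characters of `Γ` -/
noncomputable def tgnConjChar : (Γ →* ℂˣ) →* (Γ →* ℂˣ) where
  toFun χ := ((Units.map (starRingEnd ℂ : ℂ →* ℂ)).comp χ).comp (tgeJ Γ)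
  map_one' := by
    ext γ
    simp
  map_mul' χ ψ := by
    ext γ
    simp

theorem tgnConjChar_apply (χ : Γ →* ℂˣ) (γ : Γ) :
    ((tgnConjChar Γ χ γ : ℂˣ) : ℂ) = conj ((χ (tgeJ Γ γ) : ℂˣ) : ℂ) := rfl

variable {Γ}

theorem tgnConjChar_mem {m : ℕ} {χ : Γ →* ℂˣ} (hχ : χ ∈ tgnX Γ m) :
    tgnConjChar Γ χ ∈ tgnX Γ m := by
  obtain ⟨h1, h2, h3⟩ := hχ
  refine ⟨fun γ => ?_, fun γ hγ => ?_, fun γ hγ => ?_⟩
  · apply Units.ext
    rw [Units.val_pow_eq_pow_val, tgnConjChar_apply, ← map_pow, ← Units.val_pow_eq_pow_val, h1]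
    simp
  · apply Units.ext
    rw [tgnConjChar_apply, h2 (tgeJ Γ γ) (by
      rw [tgeJ_coe, tdm_trace_jConj]; exact hγ)]
    simp
  · apply Units.ext
    rw [tgnConjChar_apply, h3 (tgeJ Γ γ) ((tgeJ Γ).isOfFinOrder hγ)]
    simp

/-- the character of the conjugate function -/
theorem tgnHasChar_conj (g : tdmMer) (χ : Γ →* ℂˣ) (h : tdmHasChar Γ g χ) (γ : Γ) :
    tdmSL (γ : SL(2, ℤ)) (tdmConj g) = conj ((χ (tgeJ Γ γ) : ℂˣ) : ℂ) • tdmConj g := by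
  have h1 := h (tgeJ Γ γ)
  have h2 := congrArg tdmConj h1
  rw [tdmConj_SL, tdmConj_smul, tgeJ_coe, jConjSL_jConjSL] at h2
  exact h2

variable {𝕜 : Type} [Field 𝕜] [Algebra 𝕜 ℂ] [Algebra ℚ 𝕜] {h : ℕ}
  [NeZero h] {F₀ : IntermediateField ℚ (LaurentSeries ℚ)} (D : TgdDict 𝕜 Γ h F₀)

/-- **conjugation equivariance**: if the function of `z` is the conjugate of the function of
`y ∈ tgWsub 𝕜 F₀ m`, then `z ∈ tgWsub 𝕜 F₀ m` and `Ψ z = conj ∘ Ψ y ∘ J`. -/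
theorem TgdDict.psi_conj {m : ℕ} (hm : m ≠ 0) (y : tgWsub 𝕜 F₀ m)
    (z : (↥(laurentBaseChange 𝕜 F₀))ˣ)
    (hz : D.fn (z : ↥(laurentBaseChange 𝕜 F₀))
      = tdmConj (D.fn ((y : (↥(laurentBaseChange 𝕜 F₀))ˣ) : ↥(laurentBaseChange 𝕜 F₀)))) :
    ∃ hz' : z ∈ tgWsub 𝕜 F₀ m,
      ((D.psi hm ⟨z, hz'⟩ : tgnX Γ m) : Γ →* ℂˣ)
        = tgnConjChar Γ ((D.psi hm y : tgnX Γ m) : Γ →* ℂˣ) := by
  obtain ⟨g, hg⟩ := D.exists_root hm y.2
  have hχ := D.psiChar_spec hm y hg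
  have hG : (tdmConj g) ^ m = D.fn (z : ↥(laurentBaseChange 𝕜 F₀)) := by
    rw [hz, ← map_pow, hg]
  have hGχ : tdmHasChar Γ (tdmConj g) (tgnConjChar Γ (D.psiChar hm y)) := by
    intro γ
    rw [tgnConjChar_apply]
    exact tgnHasChar_conj g _ hχ γ
  have hmem := tgnConjChar_mem (D.psiChar_mem hm y)
  have hz' : z ∈ tgWsub 𝕜 F₀ m := D.mem_of_char hm z hG hGχ hmem
  refine ⟨hz', ?_⟩
  rw [D.psi_coe, D.psi_coe]
  exact D.psiChar_eq hm ⟨z, hz'⟩ hG hGχ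

end Conj

end Fermat.Agent.T1G
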