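/-
T1G-AN (helper1), TG-MONO part 10: the Galois action on the character groups `X_m(Γ)`, transported
from the Kummer groups through the monodromy isomorphism (generic version of
`Lib/T1/Mono/GalX.lean`).
-/
import Mathlib
import Fermat.Agent.Lib.T1G.Mono.PsiK
import Fermat.Agent.Lib.T1G.Mono.HeckeFun

set_option autoImplicit false
set_option linter.unusedSectionVars false

namespace Fermat.Agent.T1G

open Complex Set Filter Topology Matrix MatrixGroups CongruenceSubgroup ModularCurve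
open UpperHalfPlane hiding I
open Fermat.Agent.S24Lib
open Fermat.Agent.T1

local notation "Kbar" => AlgebraicClosure ℚ
local notation "GQ" => (AlgebraicClosure ℚ ≃ₐ[ℚ] AlgebraicClosure ℚ)

/-! ### Divisibility of the exponent -/

section Generic

variable {𝕜 : Type} [Field 𝕜] [Algebra 𝕜 ℂ] [Algebra ℚ 𝕜] {Γ : Subgroup SL(2, ℤ)} {h : ℕ}
  [NeZero h] {F₀ : IntermediateField ℚ (LaurentSeries ℚ)} (D : TgdDict 𝕜 Γ h F₀)

/-- `Ψ_m y = (Ψ_M y) ^ d` for `M = m d` -/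
theorem TgdDict.psi_of_eq_mul {m M d : ℕ} (hm : m ≠ 0) (hM : M ≠ 0) (hd : M = m * d)
    (y : tgWsub 𝕜 F₀ M) :
    ((D.psi hm ⟨y.1, tgWsub_le_of_eq_mul F₀ hd y.2⟩ : tgnX Γ m) : Γ →* ℂˣ)
      = ((D.psi hM y : tgnX Γ M) : Γ →* ℂˣ) ^ d := by
  obtain ⟨g, hg⟩ := D.exists_root hM y.2
  rw [D.psi_coe, D.psi_coe]
  apply D.psiChar_eq hm ⟨y.1, tgWsub_le_of_eq_mul F₀ hd y.2⟩ (g := g ^ d)
  · rw [← pow_mul, mul_comm, ← hd]
    exact hg
  · exact tdmHasChar_npow (D.psiChar_spec hM y hg) d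

end Generic

section Gal

variable {Γ : Subgroup SL(2, ℤ)} [Γ.FiniteIndex] {h : ℕ} [NeZero h]
  {F₀ : IntermediateField ℚ (LaurentSeries ℚ)}
  {DK : TgdDict Kbar Γ h F₀} {DC : TgdDictC Γ h F₀} (E : TgdDescent DK DC)

include E in
theorem TgdDescent.ker_le {m : ℕ} (hm : m ≠ 0) (σ : GQ) :
    (DK.psi hm).ker ≤ ((DK.psi hm).comp (tgSigW F₀ m σ)).ker := by
  intro y hy
  rw [E.psi_ker_eq hm] at hy
  obtain ⟨t, ht⟩ := mem_tgPowSub.mp hy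
  rw [MonoidHom.mem_ker, MonoidHom.comp_apply]
  apply DK.psi_pow hm _ (tgSig F₀ σ t)
  rw [tgSigW_coe, ← ht, map_pow]

/-- **the Galois action on `X_m`** -/
noncomputable def TgdDescent.galX {m : ℕ} (hm : m ≠ 0) (σ : GQ) : tgnX Γ m →* tgnX Γ m :=
  (DK.psi hm).liftOfSurjective (E.psi_surjective hm)
    ⟨(DK.psi hm).comp (tgSigW F₀ m σ), E.ker_le hm σ⟩

theorem TgdDescent.galX_psi {m : ℕ} (hm : m ≠ 0) (σ : GQ) (y : tgWsub Kbar F₀ m) :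
    E.galX hm σ (DK.psi hm y) = DK.psi hm (tgSigW F₀ m σ y) :=
  MonoidHom.liftOfRightInverse_comp_apply _ _ _ _ y

theorem TgdDescent.galX_mul {m : ℕ} (hm : m ≠ 0) (σ τ : GQ) (χ : tgnX Γ m) :
    E.galX hm (σ * τ) χ = E.galX hm σ (E.galX hm τ χ) := by
  obtain ⟨y, rfl⟩ := E.psi_surjective hm χ
  rw [E.galX_psi, E.galX_psi, E.galX_psi]
  have h : tgSigW F₀ m (σ * τ) y = tgSigW F₀ m σ (tgSigW F₀ m τ y) :=
    Subtype.ext (tgSig_mul F₀ σ τ y.1)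
  rw [h]

theorem TgdDescent.galX_one {m : ℕ} (hm : m ≠ 0) (χ : tgnX Γ m) : E.galX hm 1 χ = χ := by
  obtain ⟨y, rfl⟩ := E.psi_surjective hm χ
  rw [E.galX_psi]
  have h : tgSigW F₀ m 1 y = y := Subtype.ext (tgSig_one F₀ y.1)
  rw [h]

/-- compatibility with the transition maps `χ ↦ χ ^ d` -/
theorem TgdDescent.galX_pow {m M d : ℕ} (hm : m ≠ 0) (hM : M ≠ 0) (hd : M = m * d) (σ : GQ)
    (χ : tgnX Γ M) (χ' : tgnX Γ m)
    (h : (χ' : Γ →* ℂˣ) = (χ : Γ →* ℂˣ) ^ d) :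
    ((E.galX hm σ χ' : tgnX Γ m) : Γ →* ℂˣ)
      = ((E.galX hM σ χ : tgnX Γ M) : Γ →* ℂˣ) ^ d := by
  obtain ⟨y, rfl⟩ := E.psi_surjective hM χ
  have h1 : χ' = DK.psi hm ⟨y.1, tgWsub_le_of_eq_mul F₀ hd y.2⟩ := by
    apply Subtype.ext
    rw [h, DK.psi_of_eq_mul hm hM hd y]
  rw [h1, E.galX_psi, E.galX_psi, ← DK.psi_of_eq_mul hm hM hd (tgSigW F₀ M σ y)]
  rfl

end Gal

end Fermat.Agent.T1G
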