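/-
T1G-AN (helper1), TG-MONO part 11: properties of the Galois action `galX` on the character groups
`X_m(Γ)` (generic version of `Lib/T1/Mono/GalProps.lean`): commutation with the abstract Hecke
operators, continuity, triviality of inertia, the Eichler–Shimura relation, complex conjugation.
-/
import Mathlib
import Fermat.Agent.Lib.T1G.Mono.GalX

set_option autoImplicit false
set_option linter.unusedSectionVars false
set_option linter.style.haveILetI false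

namespace Fermat.Agent.T1G

open Complex Set Filter Topology Matrix MatrixGroups CongruenceSubgroup ModularCurve
open UpperHalfPlane hiding I
open Fermat.Agent.S24Lib
open Fermat.Agent.T1

local notation "Kbar" => AlgebraicClosure ℚ
local notation "GQ" => (AlgebraicClosure ℚ ≃ₐ[ℚ] AlgebraicClosure ℚ)

/-! ### Operators on `X_m` -/

/-- the abstract Hecke operator of a coset system on `X_m` -/
noncomputable def tgnHomX {Γ : Subgroup SL(2, ℤ)} {ι : Type} [Fintype ι]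
    (S : tdmCosetSys Γ ι) (m : ℕ) : tgnX Γ m →* tgnX Γ m :=
  ((S.homMul ℂˣ).comp (tgnX Γ m).subtype).codRestrict (tgnX Γ m)
    (fun χ => tgn_homMul_mem_tgnX S χ.2)

theorem tgnHomX_coe {Γ : Subgroup SL(2, ℤ)} {ι : Type} [Fintype ι]
    (S : tdmCosetSys Γ ι) (m : ℕ) (χ : tgnX Γ m) :
    ((tgnHomX S m χ : tgnX Γ m) : Γ →* ℂˣ) = S.homMul ℂˣ (χ : Γ →* ℂˣ) := rfl

/-- `χ ↦ conj ∘ χ ∘ jConj` on `X_m` -/
noncomputable def tgnConjX (Γ : Subgroup SL(2, ℤ)) [TgeJStable Γ] (m : ℕ) :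
    tgnX Γ m →* tgnX Γ m :=
  ((tgnConjChar Γ).comp (tgnX Γ m).subtype).codRestrict (tgnX Γ m)
    (fun χ => tgnConjChar_mem χ.2)

theorem tgnConjX_coe (Γ : Subgroup SL(2, ℤ)) [TgeJStable Γ] (m : ℕ) (χ : tgnX Γ m) :
    ((tgnConjX Γ m χ : tgnX Γ m) : Γ →* ℂˣ) = tgnConjChar Γ (χ : Γ →* ℂˣ) := rfl

/-! ### Functional operators and the monodromy map -/

section Generic

variable {𝕜 : Type} [Field 𝕜] [Algebra 𝕜 ℂ] [Algebra ℚ 𝕜] {Γ : Subgroup SL(2, ℤ)} {h : ℕ}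
  [NeZero h] {F₀ : IntermediateField ℚ (LaurentSeries ℚ)} (D : TgdDict 𝕜 Γ h F₀)

/-- a functional operator `Tf` whose analytic form is `Y ↦ ∏ i, Y ∘ α_i` preserves the Kummer
group and corresponds to the abstract Hecke operator under `Ψ` -/
theorem TgdDict.psi_op {ι : Type} [Fintype ι] (S : tdmCosetSys Γ ι) {m : ℕ}
    (hm : m ≠ 0) (Tf : (↥(laurentBaseChange 𝕜 F₀))ˣ → (↥(laurentBaseChange 𝕜 F₀))ˣ)
    (hTf : ∀ y : (↥(laurentBaseChange 𝕜 F₀))ˣ, D.fn ((Tf y : (↥(laurentBaseChange 𝕜 F₀))ˣ) :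
      ↥(laurentBaseChange 𝕜 F₀)) = S.prodFn (D.fn (y : ↥(laurentBaseChange 𝕜 F₀))))
    (y : tgWsub 𝕜 F₀ m) :
    ∃ h : Tf y.1 ∈ tgWsub 𝕜 F₀ m, D.psi hm ⟨Tf y.1, h⟩ = tgnHomX S m (D.psi hm y) := by
  obtain ⟨h, h2⟩ := D.psi_hecke S hm y (Tf y.1) (hTf y.1)
  exact ⟨h, Subtype.ext h2⟩

end Generic

section Gal

variable {Γ : Subgroup SL(2, ℤ)} [Γ.FiniteIndex] {h : ℕ} [NeZero h]
  {F₀ : IntermediateField ℚ (LaurentSeries ℚ)}
  {DK : TgdDict Kbar Γ h F₀} {DC : TgdDictC Γ h F₀} (E : TgdDescent DK DC)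

include E in
/-- **(H1) at finite level**: the Galois action commutes with every abstract Hecke operator which
comes from a Galois-equivariant functional operator -/
theorem TgdDescent.galX_op {ι : Type} [Fintype ι] (S : tdmCosetSys Γ ι) {m : ℕ}
    (hm : m ≠ 0)
    (Tf : (↥(laurentBaseChange Kbar F₀))ˣ → (↥(laurentBaseChange Kbar F₀))ˣ)
    (hTf : ∀ y : (↥(laurentBaseChange Kbar F₀))ˣ,
      DK.fn ((Tf y : (↥(laurentBaseChange Kbar F₀))ˣ) : ↥(laurentBaseChange Kbar F₀))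
        = S.prodFn (DK.fn (y : ↥(laurentBaseChange Kbar F₀))))
    (hcomm : ∀ (σ : GQ) (y : (↥(laurentBaseChange Kbar F₀))ˣ),
      Tf (tgSig F₀ σ y) = tgSig F₀ σ (Tf y))
    (σ : GQ) (χ : tgnX Γ m) :
    E.galX hm σ (tgnHomX S m χ) = tgnHomX S m (E.galX hm σ χ) := by
  obtain ⟨y, rfl⟩ := E.psi_surjective hm χ
  obtain ⟨h1, h2⟩ := DK.psi_op S hm Tf hTf y
  obtain ⟨h3, h4⟩ := DK.psi_op S hm Tf hTf (tgSigW F₀ m σ y)
  rw [← h2, E.galX_psi, E.galX_psi, ← h4]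
  congr 1
  apply Subtype.ext
  rw [tgSigW_coe]
  exact (hcomm σ y.1).symm

include E in
/-- **(H3) at finite level**: if `σ y ≡ y` modulo `m`-th powers on the Kummer group, then `σ` acts
trivially on `X_m` -/
theorem TgdDescent.galX_eq_self {m : ℕ} (hm : m ≠ 0) (σ : GQ)
    (h : ∀ y : (↥(laurentBaseChange Kbar F₀))ˣ, y ∈ tgWsub Kbar F₀ m →
      ∃ t : (↥(laurentBaseChange Kbar F₀))ˣ, tgSig F₀ σ y = y * t ^ m)
    (χ : tgnX Γ m) : E.galX hm σ χ = χ := by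
  obtain ⟨y, rfl⟩ := E.psi_surjective hm χ
  rw [E.galX_psi]
  obtain ⟨t, ht⟩ := h y.1 y.2
  have h1 : tgSigW F₀ m σ y = y * ⟨t ^ m, tg_pow_mem_tgWsub F₀ m t⟩ := Subtype.ext ht
  rw [h1, map_mul, DK.psi_pow hm ⟨t ^ m, tg_pow_mem_tgWsub F₀ m t⟩ t rfl, mul_one]

include E in
/-- **(H4) at finite level**: the Eichler–Shimura relation on `X_m` from the relation
`σ²y · y^l = T(σ y) · t^m` on functions -/
theorem TgdDescent.galX_frob {ι : Type} [Fintype ι] (S : tdmCosetSys Γ ι) {m : ℕ}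
    (hm : m ≠ 0) (l : ℕ)
    (Tf : (↥(laurentBaseChange Kbar F₀))ˣ → (↥(laurentBaseChange Kbar F₀))ˣ)
    (hTf : ∀ y : (↥(laurentBaseChange Kbar F₀))ˣ,
      DK.fn ((Tf y : (↥(laurentBaseChange Kbar F₀))ˣ) : ↥(laurentBaseChange Kbar F₀))
        = S.prodFn (DK.fn (y : ↥(laurentBaseChange Kbar F₀))))
    (σ : GQ)
    (h : ∀ y : (↥(laurentBaseChange Kbar F₀))ˣ, y ∈ tgWsub Kbar F₀ m →
      Tf (tgSig F₀ σ y) ∈ tgWsub Kbar F₀ m →
      ∃ t : (↥(laurentBaseChange Kbar F₀))ˣ,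
        tgSig F₀ σ (tgSig F₀ σ y) * y ^ l = Tf (tgSig F₀ σ y) * t ^ m)
    (χ : tgnX Γ m) :
    E.galX hm σ (E.galX hm σ χ) * χ ^ l = tgnHomX S m (E.galX hm σ χ) := by
  obtain ⟨y, rfl⟩ := E.psi_surjective hm χ
  obtain ⟨h3, h4⟩ := DK.psi_op S hm Tf hTf (tgSigW F₀ m σ y)
  rw [E.galX_psi, E.galX_psi, ← h4, ← map_pow, ← map_mul]
  obtain ⟨t, ht⟩ := h y.1 y.2 h3
  have h1 : tgSigW F₀ m σ (tgSigW F₀ m σ y) * y ^ l
      = ⟨Tf (tgSigW F₀ m σ y).1, h3⟩ * ⟨t ^ m, tg_pow_mem_tgWsub F₀ m t⟩ := Subtype.ext ht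
  rw [h1, map_mul, DK.psi_pow hm ⟨t ^ m, tg_pow_mem_tgWsub F₀ m t⟩ t rfl, mul_one]

include E in
/-- **(H2) at finite level**: a finite extension of `ℚ` whose Galois group acts trivially on `X_m` -/
theorem TgdDescent.galX_cont {m : ℕ} (hm : m ≠ 0)
    (hfix : ∀ y : ↥(laurentBaseChange Kbar F₀), ∃ L : IntermediateField ℚ Kbar,
      FiniteDimensional ℚ L ∧ ∀ σ : GQ, (∀ x ∈ L, σ x = x) →
        arithmeticRingAut (F₀) σ y = y) :
    ∃ L : IntermediateField ℚ Kbar, FiniteDimensional ℚ L ∧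
      ∀ σ : GQ, (∀ x ∈ L, σ x = x) → ∀ χ : tgnX Γ m, E.galX hm σ χ = χ := by
  haveI : NeZero m := ⟨hm⟩
  choose y hy using E.psi_surjective hm
  choose L hL hLfix using fun χ : tgnX Γ m =>
    hfix (((y χ : tgWsub Kbar F₀ m) : (↥(laurentBaseChange Kbar F₀))ˣ) :
      ↥(laurentBaseChange Kbar F₀))
  refine ⟨⨆ χ, L χ, ?_, fun σ hσ χ => ?_⟩
  · haveI := hL
    exact IntermediateField.finiteDimensional_iSup_of_finite
  · have h1 : ∀ x ∈ L χ, σ x = x := fun x hx => hσ x (le_iSup L χ hx)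
    have h2 := hLfix χ σ h1
    have h3 : tgSigW F₀ m σ (y χ) = y χ := by
      apply Subtype.ext
      apply Units.ext
      exact h2
    rw [← hy χ, E.galX_psi, h3]

include E in
/-- **complex conjugation**: if `c` acts on functions as `Y ↦ conj ∘ Y ∘ (τ ↦ -τ̄)`, then it acts on
`X_m` as `χ ↦ conj ∘ χ ∘ jConj` -/
theorem TgdDescent.galX_conj [TgeJStable Γ] {m : ℕ} (hm : m ≠ 0) (c : GQ)
    (hc : ∀ y : ↥(laurentBaseChange Kbar F₀),
      DK.fn (arithmeticRingAut (F₀) c y) = tdmConj (DK.fn y))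
    (χ : tgnX Γ m) : E.galX hm c χ = tgnConjX Γ m χ := by
  obtain ⟨y, rfl⟩ := E.psi_surjective hm χ
  rw [E.galX_psi]
  obtain ⟨h1, h2⟩ := DK.psi_conj hm y (tgSig F₀ c y.1) (hc _)
  exact Subtype.ext h2

end Gal

end Fermat.Agent.T1G
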