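/-
T1G-AN (helper1), TG-MONO part 12: the tower `parabolicHoms ℤ_p Γ ℤ_p = lim X_{p^k}(Γ)` for a general
finitely generated subgroup `Γ ≤ SL(2, ℤ)` (specialisation of the generic tower `tdmTower` of
`Lib/T1/Mono/Limit.lean`), and the Galois action on the tower.
-/
import Mathlib
import Fermat.Agent.Lib.T1.Mono.Limit
import Fermat.Agent.Lib.T1G.Mono.GalProps

set_option autoImplicit false
set_option linter.unusedSectionVars false
set_option linter.style.haveILetI false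

namespace Fermat.Agent.T1G

open Complex Set Filter Topology Matrix MatrixGroups CongruenceSubgroup ModularCurve
open UpperHalfPlane hiding I
open Fermat.Agent.S24Lib ModularCurve.Period
open Fermat.Agent.T1

local notation "Kbar" => AlgebraicClosure ℚ
local notation "GQ" => (AlgebraicClosure ℚ ≃ₐ[ℚ] AlgebraicClosure ℚ)

noncomputable section

section Tower

variable (p : ℕ) [Fact p.Prime] (Γ : Subgroup SL(2, ℤ))

/-- the elements of `Γ` with `tr² = 4` -/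
def tgnPar : Set ↥Γ :=
  {γ | ((γ : SL(2, ℤ)) : Matrix (Fin 2) (Fin 2) ℤ).trace ^ 2 = 4}

lemma tgnTa_eq_parabolicHoms :
    tdmTa p (tgnPar Γ) = parabolicHoms ℤ_[p] Γ ℤ_[p] := rfl

lemma tgnXa_eq_tgnX (m : ℕ) : tdmXa (tgnPar Γ) m = tgnX Γ m := rfl

instance tgn_finite_parabolicHoms [Group.FG Γ] :
    Module.Finite ℤ_[p] ↥(parabolicHoms ℤ_[p] Γ ℤ_[p]) :=
  tdm_finite_T p (tgnPar Γ)

instance tgn_free_parabolicHoms [Group.FG Γ] :
    Module.Free ℤ_[p] ↥(parabolicHoms ℤ_[p] Γ ℤ_[p]) :=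
  tdm_free_T p (tgnPar Γ)

/-- `parabolicHoms ℤ_p Γ ℤ_p` is the inverse limit of the groups `X_{p^k}(Γ)` -/
def tgnTower : TeTower p ↥(parabolicHoms ℤ_[p] Γ ℤ_[p])
    (fun k => Additive ↥(tgnX Γ (p ^ k))) :=
  tdmTower p (tgnPar Γ)

lemma tgnTower_ι_apply (k : ℕ) (φ : ↥(parabolicHoms ℤ_[p] Γ ℤ_[p])) (γ : Γ) :
    ((Additive.toMul ((tgnTower p Γ).ι k φ) : ↥(tgnX Γ (p ^ k))) : Γ →* ℂˣ) γ =
      tdmE p k (Multiplicative.ofAdd (φ.1 (Additive.ofMul γ))) := rfl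

lemma tgnTower_π_apply (k : ℕ) (χ : Additive ↥(tgnX Γ (p ^ (k + 1)))) (γ : Γ) :
    ((Additive.toMul ((tgnTower p Γ).π k χ) : ↥(tgnX Γ (p ^ k))) : Γ →* ℂˣ) γ =
      ((Additive.toMul χ : ↥(tgnX Γ (p ^ (k + 1)))) : Γ →* ℂˣ) γ ^ p := rfl

end Tower

/-! ### The Galois action on the tower -/

section GalTower

variable (p : ℕ) [hp : Fact p.Prime] {Γ : Subgroup SL(2, ℤ)} [Γ.FiniteIndex] {h : ℕ} [NeZero h]
  {F₀ : IntermediateField ℚ (LaurentSeries ℚ)}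
  {DK : TgdDict Kbar Γ h F₀} {DC : TgdDictC Γ h F₀} (E : TgdDescent DK DC)

theorem tgn_prime_pow_ne_zero (k : ℕ) : p ^ k ≠ 0 := pow_ne_zero k hp.out.ne_zero

/-- the Galois action on `W k = X_{p^k}` (additively) -/
def TgdDescent.galW (k : ℕ) : GQ →* AddMonoid.End (Additive ↥(tgnX Γ (p ^ k))) where
  toFun σ := MonoidHom.toAdditive (E.galX (tgn_prime_pow_ne_zero p k) σ)
  map_one' := by
    refine AddMonoidHom.ext fun w => ?_
    exact congrArg Additive.ofMul (E.galX_one _ (Additive.toMul w))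
  map_mul' σ τ := by
    refine AddMonoidHom.ext fun w => ?_
    exact congrArg Additive.ofMul (E.galX_mul _ σ τ (Additive.toMul w))

theorem TgdDescent.galW_apply (k : ℕ) (σ : GQ) (w : Additive ↥(tgnX Γ (p ^ k))) :
    E.galW p k σ w = Additive.ofMul (E.galX (tgn_prime_pow_ne_zero p k) σ (Additive.toMul w)) := rfl

theorem TgdDescent.galW_compat (σ : GQ) : (tgnTower p Γ).Compat (fun k => E.galW p k σ) := by
  intro k w
  have h0 : ((Additive.toMul ((tgnTower p Γ).π k w) : ↥(tgnX Γ (p ^ k))) : Γ →* ℂˣ)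
      = ((Additive.toMul w : ↥(tgnX Γ (p ^ (k + 1)))) : Γ →* ℂˣ) ^ p := by
    ext γ
    rw [tgnTower_π_apply]
    rfl
  have h1 := E.galX_pow (tgn_prime_pow_ne_zero p k) (tgn_prime_pow_ne_zero p (k + 1)) (pow_succ p k)
    σ (Additive.toMul w) (Additive.toMul ((tgnTower p Γ).π k w)) h0
  apply Additive.toMul.injective
  apply Subtype.ext
  refine MonoidHom.ext fun γ => ?_
  rw [tgnTower_π_apply]
  have h2 := congrArg (fun f : Γ →* ℂˣ => f γ) h1
  exact h2.symm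

/-- the abstract Hecke operator of a coset system on the tower -/
theorem tgn_ι_hom {ι : Type} [Fintype ι] (S : tdmCosetSys Γ ι) (k : ℕ)
    (φ ψ : ↥(parabolicHoms ℤ_[p] Γ ℤ_[p]))
    (hψ : (ψ : Additive Γ →+ ℤ_[p]) = S.hom ℤ_[p] (φ : Additive Γ →+ ℤ_[p])) :
    (tgnTower p Γ).ι k ψ
      = MonoidHom.toAdditive (tgnHomX S (p ^ k)) ((tgnTower p Γ).ι k φ) := by
  apply Additive.toMul.injective
  apply Subtype.ext
  refine MonoidHom.ext fun γ => ?_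
  rw [tgnTower_ι_apply, hψ, tdmCosetSys.hom_apply, ofAdd_sum, map_prod]
  show _ = S.homMul ℂˣ ((Additive.toMul ((tgnTower p Γ).ι k φ) : ↥(tgnX Γ (p ^ k))) :
    Γ →* ℂˣ) γ
  rw [tdmCosetSys.homMul_apply]
  rfl

/-- complex conjugation on the tower: `χ ↦ conj ∘ χ ∘ J` is `φ ↦ -φ ∘ J` -/
theorem tgn_ι_conj [TgeJStable Γ] (k : ℕ) (φ ψ : ↥(parabolicHoms ℤ_[p] Γ ℤ_[p]))
    (hψ : (ψ : Additive Γ →+ ℤ_[p])
      = -(tgeInv Γ ℤ_[p] ℤ_[p] (φ : Additive Γ →+ ℤ_[p]))) :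
    (tgnTower p Γ).ι k ψ
      = MonoidHom.toAdditive (tgnConjX Γ (p ^ k)) ((tgnTower p Γ).ι k φ) := by
  apply Additive.toMul.injective
  apply Subtype.ext
  refine MonoidHom.ext fun γ => ?_
  apply Units.ext
  rw [tgnTower_ι_apply, hψ]
  show _ = ((tgnConjChar Γ ((Additive.toMul ((tgnTower p Γ).ι k φ) : ↥(tgnX Γ (p ^ k))) :
    Γ →* ℂˣ) γ : ℂˣ) : ℂ)
  rw [tgnConjChar_apply, tgnTower_ι_apply, tdmE_conj, AddMonoidHom.neg_apply, ofAdd_neg, map_inv]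
  rfl

end GalTower

end

end Fermat.Agent.T1G
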