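/-
T1G-AN (helper1), TG-MONO part 13: **the Tate module package, generic core**.  For a subgroup
`Γ ≤ SL(2, ℤ)` with analytic dictionaries over `ℚ̄` and `ℂ` and descent data, the Galois action
`gal : G_ℚ →* End (parabolicHoms ℤ_p Γ ℤ_p)` transported from the Kummer groups through the
monodromy isomorphisms, with:
 (H1) `gal σ` commutes with every endomorphism induced by a coset system whose functional Hecke
      operator is Galois equivariant;
 (H2) open stabilisers modulo `p ^ n`;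
 (H3) `gal σ = 1` as soon as `σ y ≡ y` modulo `p^k`-th powers on all Kummer groups;
 (H4) the Eichler–Shimura relation `gal σ ² - t_T gal σ + l t_D = 0` from the relation
      `σ² y · (⟨l⟩ y)^l ≡ T_l (σ y)` on functions;
 (C)  complex conjugation acts as `φ ↦ -φ ∘ J`.
(generic version of `Lib/T1/Mono/Package.lean`, with the diamond operator in (H4)).
-/
import Mathlib
import Fermat.Agent.Lib.T1G.Mono.Tower
import Fermat.Prelude.Def_GaloisRep_ComplexConjugation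

set_option autoImplicit false
set_option linter.unusedSectionVars false
set_option linter.style.haveILetI false

namespace Fermat.Agent.T1G

open Complex Set Filter Topology Matrix MatrixGroups CongruenceSubgroup ModularCurve
open UpperHalfPlane hiding I
open Fermat.Agent.S24Lib ModularCurve.Period
open Fermat.Agent.T1

local notation "Kbar" => AlgebraicClosure ℚ
local notation "GQ" => (AlgebraicClosure ℚ ≃ₐ[ℚ] AlgebraicClosure ℚ)

noncomputable section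

/-! ### The Eichler–Shimura relation with diamond operator at finite level -/

section Frob

variable {Γ : Subgroup SL(2, ℤ)} [Γ.FiniteIndex] {h : ℕ} [NeZero h]
  {F₀ : IntermediateField ℚ (LaurentSeries ℚ)}
  {DK : TgdDict Kbar Γ h F₀} {DC : TgdDictC Γ h F₀} (E : TgdDescent DK DC)

include E in
/-- **(H4) at finite level, with nebentypus**: the Eichler–Shimura relation on `X_m` from the
relation `σ²y · (D y)^l = T(σ y) · t^m` on functions -/
theorem TgdDescent.galX_frob_dia {ι ι' : Type} [Fintype ι] [Fintype ι'] (S : tdmCosetSys Γ ι)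
    (S' : tdmCosetSys Γ ι') {m : ℕ} (hm : m ≠ 0) (l : ℕ)
    (Tf Df : (↥(laurentBaseChange Kbar F₀))ˣ → (↥(laurentBaseChange Kbar F₀))ˣ)
    (hTf : ∀ y : (↥(laurentBaseChange Kbar F₀))ˣ,
      DK.fn ((Tf y : (↥(laurentBaseChange Kbar F₀))ˣ) : ↥(laurentBaseChange Kbar F₀))
        = S.prodFn (DK.fn (y : ↥(laurentBaseChange Kbar F₀))))
    (hDf : ∀ y : (↥(laurentBaseChange Kbar F₀))ˣ,
      DK.fn ((Df y : (↥(laurentBaseChange Kbar F₀))ˣ) : ↥(laurentBaseChange Kbar F₀))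
        = S'.prodFn (DK.fn (y : ↥(laurentBaseChange Kbar F₀))))
    (σ : GQ)
    (hrel : ∀ y : (↥(laurentBaseChange Kbar F₀))ˣ, y ∈ tgWsub Kbar F₀ m →
      Tf (tgSig F₀ σ y) ∈ tgWsub Kbar F₀ m → Df y ∈ tgWsub Kbar F₀ m →
      ∃ t : (↥(laurentBaseChange Kbar F₀))ˣ,
        tgSig F₀ σ (tgSig F₀ σ y) * Df y ^ l = Tf (tgSig F₀ σ y) * t ^ m)
    (χ : tgnX Γ m) :
    E.galX hm σ (E.galX hm σ χ) * tgnHomX S' m χ ^ l = tgnHomX S m (E.galX hm σ χ) := by
  obtain ⟨y, rfl⟩ := E.psi_surjective hm χ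
  obtain ⟨h3, h4⟩ := DK.psi_op S hm Tf hTf (tgSigW F₀ m σ y)
  obtain ⟨h5, h6⟩ := DK.psi_op S' hm Df hDf y
  rw [E.galX_psi, E.galX_psi, ← h4, ← h6, ← map_pow, ← map_mul]
  obtain ⟨t, ht⟩ := hrel y.1 y.2 h3 h5
  have h1 : tgSigW F₀ m σ (tgSigW F₀ m σ y) * (⟨Df y.1, h5⟩ : tgWsub Kbar F₀ m) ^ l
      = ⟨Tf (tgSigW F₀ m σ y).1, h3⟩ * ⟨t ^ m, tg_pow_mem_tgWsub F₀ m t⟩ := Subtype.ext ht
  rw [h1, map_mul, DK.psi_pow hm ⟨t ^ m, tg_pow_mem_tgWsub F₀ m t⟩ t rfl, mul_one]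

end Frob

/-! ### The package -/

section Package

variable (p : ℕ) [hp : Fact p.Prime] {Γ : Subgroup SL(2, ℤ)} [Γ.FiniteIndex] [TgeJStable Γ]
  {h : ℕ} [NeZero h] {F₀ : IntermediateField ℚ (LaurentSeries ℚ)}
  {DK : TgdDict Kbar Γ h F₀} {DC : TgdDictC Γ h F₀} (E : TgdDescent DK DC)

set_option quotPrecheck false in
local notation "TT" => ↥(parabolicHoms ℤ_[p] Γ ℤ_[p])

/-- the Galois action on `T = parabolicHoms ℤ_p Γ ℤ_p` -/
def TgdDescent.gal : GQ →* Module.End ℤ_[p] TT :=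
  (tgnTower p Γ).action (E.galW p) (E.galW_compat p)

theorem TgdDescent.ι_gal (σ : GQ) (x : TT) (k : ℕ) :
    (tgnTower p Γ).ι k (E.gal p σ x) = E.galW p k σ ((tgnTower p Γ).ι k x) :=
  (tgnTower p Γ).ι_action (E.galW p) (E.galW_compat p) σ x k

/-- **(H1)**: the Galois action commutes with the endomorphism induced by a coset system whose
functional operator is Galois equivariant -/
theorem TgdDescent.gal_comm {ι : Type} [Fintype ι] (S : tdmCosetSys Γ ι)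
    (Tf : (↥(laurentBaseChange Kbar F₀))ˣ → (↥(laurentBaseChange Kbar F₀))ˣ)
    (hTf : ∀ y : (↥(laurentBaseChange Kbar F₀))ˣ,
      DK.fn ((Tf y : (↥(laurentBaseChange Kbar F₀))ˣ) : ↥(laurentBaseChange Kbar F₀))
        = S.prodFn (DK.fn (y : ↥(laurentBaseChange Kbar F₀))))
    (hcomm : ∀ (σ : GQ) (y : (↥(laurentBaseChange Kbar F₀))ˣ),
      Tf (tgSig F₀ σ y) = tgSig F₀ σ (Tf y))
    (t : Module.End ℤ_[p] TT)
    (ht : ∀ φ : TT, ((t φ : TT) : Additive Γ →+ ℤ_[p])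
      = S.hom ℤ_[p] (φ : Additive Γ →+ ℤ_[p]))
    (σ : GQ) : E.gal p σ * t = t * E.gal p σ := by
  apply (tgnTower p Γ).end_ext
  intro k x
  have hιt : ∀ x : TT, (tgnTower p Γ).ι k (t x)
      = MonoidHom.toAdditive (tgnHomX S (p ^ k)) ((tgnTower p Γ).ι k x) :=
    fun x => tgn_ι_hom p S k x _ (ht x)
  rw [Module.End.mul_apply, Module.End.mul_apply, E.ι_gal p, hιt, hιt, E.ι_gal p]
  exact congrArg Additive.ofMul (E.galX_op S (tgn_prime_pow_ne_zero p k) Tf hTf hcomm σ _)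

/-- **(H2)**: open stabilisers -/
theorem TgdDescent.gal_cont
    (hfix : ∀ y : ↥(laurentBaseChange Kbar F₀), ∃ L : IntermediateField ℚ Kbar,
      FiniteDimensional ℚ L ∧ ∀ σ : GQ, (∀ x ∈ L, σ x = x) →
        arithmeticRingAut F₀ σ y = y) (n : ℕ) :
    ∃ L : IntermediateField ℚ Kbar, FiniteDimensional ℚ L ∧
      ∀ σ : GQ, (∀ x ∈ L, σ x = x) → ∀ v : TT, ∃ w : TT,
        E.gal p σ v - v = (p : ℤ_[p]) ^ n • w := by
  obtain ⟨L, hL, h1⟩ := E.galX_cont (tgn_prime_pow_ne_zero p n) hfix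
  refine ⟨L, hL, fun σ hσ v => ?_⟩
  apply (tgnTower p Γ).exists_of_ι_eq_zero n
  rw [map_sub, E.ι_gal p, E.galW_apply p, h1 σ hσ, sub_eq_zero]
  rfl

/-- **(H3)**: `σ` acts trivially if it fixes all Kummer classes -/
theorem TgdDescent.gal_eq_one (σ : GQ)
    (hσ : ∀ (k : ℕ) (y : (↥(laurentBaseChange Kbar F₀))ˣ), y ∈ tgWsub Kbar F₀ (p ^ k) →
      ∃ t : (↥(laurentBaseChange Kbar F₀))ˣ, tgSig F₀ σ y = y * t ^ (p ^ k)) :
    E.gal p σ = 1 := by
  apply (tgnTower p Γ).end_ext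
  intro k x
  rw [E.ι_gal p, E.galW_apply p, Module.End.one_apply,
    E.galX_eq_self (tgn_prime_pow_ne_zero p k) σ (hσ k)]
  rfl

/-- **(H4)**: the Eichler–Shimura relation with diamond operator -/
theorem TgdDescent.gal_frob {ι ι' : Type} [Fintype ι] [Fintype ι'] (S : tdmCosetSys Γ ι)
    (S' : tdmCosetSys Γ ι') (l : ℕ)
    (Tf Df : (↥(laurentBaseChange Kbar F₀))ˣ → (↥(laurentBaseChange Kbar F₀))ˣ)
    (hTf : ∀ y : (↥(laurentBaseChange Kbar F₀))ˣ,
      DK.fn ((Tf y : (↥(laurentBaseChange Kbar F₀))ˣ) : ↥(laurentBaseChange Kbar F₀))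
        = S.prodFn (DK.fn (y : ↥(laurentBaseChange Kbar F₀))))
    (hDf : ∀ y : (↥(laurentBaseChange Kbar F₀))ˣ,
      DK.fn ((Df y : (↥(laurentBaseChange Kbar F₀))ˣ) : ↥(laurentBaseChange Kbar F₀))
        = S'.prodFn (DK.fn (y : ↥(laurentBaseChange Kbar F₀))))
    (σ : GQ)
    (hrel : ∀ (k : ℕ) (y : (↥(laurentBaseChange Kbar F₀))ˣ), y ∈ tgWsub Kbar F₀ (p ^ k) →
      Tf (tgSig F₀ σ y) ∈ tgWsub Kbar F₀ (p ^ k) → Df y ∈ tgWsub Kbar F₀ (p ^ k) →
      ∃ t : (↥(laurentBaseChange Kbar F₀))ˣ,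
        tgSig F₀ σ (tgSig F₀ σ y) * Df y ^ l = Tf (tgSig F₀ σ y) * t ^ (p ^ k))
    (tT tD : Module.End ℤ_[p] TT)
    (htT : ∀ φ : TT, ((tT φ : TT) : Additive Γ →+ ℤ_[p])
      = S.hom ℤ_[p] (φ : Additive Γ →+ ℤ_[p]))
    (htD : ∀ φ : TT, ((tD φ : TT) : Additive Γ →+ ℤ_[p])
      = S'.hom ℤ_[p] (φ : Additive Γ →+ ℤ_[p])) :
    E.gal p σ * E.gal p σ - tT * E.gal p σ + (l : ℤ_[p]) • tD = 0 := by
  apply (tgnTower p Γ).end_ext
  intro k x
  have hιT : ∀ x : TT, (tgnTower p Γ).ι k (tT x)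
      = MonoidHom.toAdditive (tgnHomX S (p ^ k)) ((tgnTower p Γ).ι k x) :=
    fun x => tgn_ι_hom p S k x _ (htT x)
  have hιD : ∀ x : TT, (tgnTower p Γ).ι k (tD x)
      = MonoidHom.toAdditive (tgnHomX S' (p ^ k)) ((tgnTower p Γ).ι k x) :=
    fun x => tgn_ι_hom p S' k x _ (htD x)
  have h2 : (tgnTower p Γ).ι k (((l : ℤ_[p]) • tD) x)
      = l • MonoidHom.toAdditive (tgnHomX S' (p ^ k)) ((tgnTower p Γ).ι k x) := by
    rw [LinearMap.smul_apply, Nat.cast_smul_eq_nsmul, map_nsmul, hιD]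
  have h3 := E.galX_frob_dia S S' (tgn_prime_pow_ne_zero p k) l Tf Df hTf hDf σ (hrel k)
    (Additive.toMul ((tgnTower p Γ).ι k x))
  have h4 : E.galW p k σ (E.galW p k σ ((tgnTower p Γ).ι k x))
        + l • MonoidHom.toAdditive (tgnHomX S' (p ^ k)) ((tgnTower p Γ).ι k x)
      = MonoidHom.toAdditive (tgnHomX S (p ^ k)) (E.galW p k σ ((tgnTower p Γ).ι k x)) :=
    congrArg Additive.ofMul h3
  simp only [LinearMap.add_apply, LinearMap.sub_apply, Module.End.mul_apply, map_add, map_sub,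
    E.ι_gal p, hιT, h2, LinearMap.zero_apply, map_zero]
  rw [← h4]
  abel

/-- **complex conjugation** acts as `φ ↦ -φ ∘ J` -/
theorem TgdDescent.gal_conj
    (hconj : ∀ y : ↥(laurentBaseChange Kbar F₀),
      DK.fn (arithmeticRingAut F₀ complexConjugation y) = tdmConj (DK.fn y)) (φ : TT) :
    ((E.gal p complexConjugation φ : TT) : Additive Γ →+ ℤ_[p])
      = -(tgeInv Γ ℤ_[p] ℤ_[p] (φ : Additive Γ →+ ℤ_[p])) := by
  set ψ : TT := ⟨-(tgeInv Γ ℤ_[p] ℤ_[p] (φ : Additive Γ →+ ℤ_[p])),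
    (parabolicHoms ℤ_[p] Γ ℤ_[p]).neg_mem
      (tgeInv_mem_parabolicHoms Γ ℤ_[p] ℤ_[p] φ.2)⟩ with hψ
  have h1 : E.gal p complexConjugation φ = ψ := by
    apply (tgnTower p Γ).ext_elem
    intro k
    rw [E.ι_gal p, tgn_ι_conj p k φ ψ rfl, E.galW_apply p,
      E.galX_conj (tgn_prime_pow_ne_zero p k) complexConjugation hconj]
    rfl
  rw [h1]

end Package

end

end Fermat.Agent.T1G
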