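/-
T1G-AN (helper1), TG-MONO part 16: **the Tate module package with nebentypus** `TgzPackage p M` for
`Γ₁(M)`, `6 ≤ M`, `4 ∣ M ∨ 9 ∣ M`, assembled from
* the generic Galois action `E.gal p` on `T = parabolicHoms ℤ_p Γ₁(M) ℤ_p` (Mono/Package.lean) for
  the dictionaries of the analytic models `tgdModelOne ℚ̄ M`, `tgdModelOne ℂ M` (AN-GMOD, AN-DICT);
* the functional Hecke operators and the Eichler–Shimura relation on functions (TG-KRON);
* (K1), (K2), normal forms at the places prime to `M` (TG-LEVEL, AN-GENUS);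
* the lattice Hecke action and multiplicity two (TG-ES, TG-MULT; Mono/LatHecke.lean),
with the remaining leaves (complex conjugation, open stabilisers, Galois equivariance of `T_l` and
`U_q`, surjectivity of the Eichler–Shimura pairing) as hypotheses.
-/
import Mathlib
import Fermat.Agent.Lib.T1G.Mono.Package
import Fermat.Agent.Lib.T1G.Mono.LatHecke
import Fermat.Agent.Lib.T1G.Mono.FinalPre
import Fermat.Agent.Lib.T1G.Dict.Main
import Fermat.Agent.Lib.T1G.Asm.Skeleton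

set_option autoImplicit false
set_option linter.unusedSectionVars false
set_option linter.style.haveILetI false
set_option linter.unusedVariables false
set_option synthInstance.maxHeartbeats 400000

namespace Fermat.Agent.T1G

open Complex Set Filter Topology Matrix MatrixGroups CongruenceSubgroup ModularCurve
open UpperHalfPlane hiding I
open Fermat.Agent.S24Lib ModularCurve.Period Fermat.Agent.T1 Fermat.Agent.DS Fermat.Agent.CFT
open scoped TensorProduct
attribute [local instance] KMod.charZero_k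

local notation "Kbar" => AlgebraicClosure ℚ
local notation "GQ" => (AlgebraicClosure ℚ ≃ₐ[ℚ] AlgebraicClosure ℚ)

noncomputable section

variable (p : ℕ) [hp : Fact p.Prime] (M : ℕ) [NeZero M]

set_option quotPrecheck false in
local notation "FF" => ↥(laurentBaseChange Kbar (tgOneQ M))
set_option quotPrecheck false in
local notation "TT" => ↥(parabolicHoms ℤ_[p] (Gamma1 M) ℤ_[p])

/-- the descent data between the dictionaries of the analytic models of `Γ₁(M)` over `ℚ̄` and `ℂ` -/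
def tgzDescent (hM : 6 ≤ M) :
    TgdDescent (tgdModelOne Kbar M hM).dict (tgdModelOne ℂ M hM).dictC :=
  TgdModel.descentC (tgdModelOne Kbar M hM) (tgdModelOne ℂ M hM) rfl (tgl_jq_mem_oneQ M)

/-- **the Tate module package of `Γ₁(M)`**, from the remaining leaves -/
theorem tgz_package_of (hM : 6 ≤ M) (h49 : 4 ∣ M ∨ 9 ∣ M)
    (hsurj : Function.Surjective (tgePair (Gamma1 M)))
    (hconj : ∀ y : FF,
      (tgdModelOne Kbar M hM).dict.fn (arithmeticRingAut (tgOneQ M) complexConjugation y)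
        = tdmConj ((tgdModelOne Kbar M hM).dict.fn y))
    (hfix : ∀ y : FF, ∃ L : IntermediateField ℚ Kbar,
      FiniteDimensional ℚ L ∧ ∀ σ : GQ, (∀ x ∈ L, σ x = x) →
        arithmeticRingAut (tgOneQ M) σ y = y)
    (hTσ : ∀ (l : ℕ) [NeZero l] (hl : l.Prime) (hlM : ¬ l ∣ M) (σ : GQ) (y : FFˣ),
      tgkmT M (tgdModelOne Kbar M hM) hl hlM (tgSig (tgOneQ M) σ y)
        = tgSig (tgOneQ M) σ (tgkmT M (tgdModelOne Kbar M hM) hl hlM y))
    (Uf : ∀ q : ℕ, q.Prime → q ∣ M → FFˣ → FFˣ)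
    (hUf : ∀ (q : ℕ) (hq : q.Prime) (hqM : q ∣ M) (y : FFˣ),
      (tgdModelOne Kbar M hM).dict.fn ((Uf q hq hqM y : FFˣ) : FF)
        = (tgmSysU M hqM hq.ne_zero).prodFn ((tgdModelOne Kbar M hM).dict.fn (y : FF)))
    (hUσ : ∀ (q : ℕ) (hq : q.Prime) (hqM : q ∣ M) (σ : GQ) (y : FFˣ),
      Uf q hq hqM (tgSig (tgOneQ M) σ y) = tgSig (tgOneQ M) σ (Uf q hq hqM y)) :
    TgzPackage p M := by
  classical
  set MK := tgdModelOne Kbar M hM with hMK
  set E := tgzDescent M hM with hE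
  set gal : GQ →* Module.End ℤ_[p] TT := E.gal p with hgal
  set hecke : tgHeckeAlg M (∅ : Set ℕ) →+* Module.End ℤ_[p] TT := tgzHeckeP hsurj p with hhecke
  have hζ : IsPrimitiveRoot (tgxZeta Kbar M) M := tgxZeta_isPrimitiveRoot Kbar M
  have hemb : ∀ γ ∈ Gamma0 M, ∀ (y : FF)
      (hy : (y : LaurentSeries Kbar) ∈ TgOne Kbar M (tgxZeta Kbar M)),
      tgxFieldQk MK.G (tgxRep MK.G γ (MK.toF y))
        = (tgGalois_an Kbar M).tgEmb γ ⟨(y : LaurentSeries Kbar), hy⟩ :=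
    fun γ _ y hy => tgz_hemb M hM γ y hy
  have hDσ : ∀ (d : (ZMod M)ˣ) (σ : GQ) (y : FFˣ),
      tgkmD M MK d (tgSig (tgOneQ M) σ y) = tgSig (tgOneQ M) σ (tgkmD M MK d y) :=
    fun d σ y => tgkfD_sigma M MK.G MK.iso MK.iso_ql MK.ker_le hζ (tgGalois_an Kbar M) hemb d σ y
  -- (H1)
  have hcomm : ∀ (σ : GQ) (t : tgHeckeAlg M (∅ : Set ℕ)), gal σ * hecke t = hecke t * gal σ := by
    intro σ t
    obtain ⟨t, ht⟩ := t
    suffices key : ∀ ht' : t ∈ tgHeckeAlg M (∅ : Set ℕ),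
        gal σ * hecke ⟨t, ht'⟩ = hecke ⟨t, ht'⟩ * gal σ from key ht
    refine tgHeckeAlg_induction (S := (∅ : Set ℕ))
      (P := fun t => ∀ ht : t ∈ tgHeckeAlg M (∅ : Set ℕ),
        gal σ * hecke ⟨t, ht⟩ = hecke ⟨t, ht⟩ * gal σ) ?_ ?_ ?_ ?_ ?_ ?_ ht
    · intro l hl hlM _ ht
      haveI : NeZero l := ⟨hl.ne_zero⟩
      exact E.gal_comm p (tgmSysT M hl hlM) (tgkmT M MK hl hlM) (tgkm_fn_T M MK hl hlM)
        (fun σ y => hTσ l hl hlM σ y) (hecke (tgT hl hlM (Set.notMem_empty l)))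
        (tgzHeckeP_T hsurj p hl hlM) σ
    · intro q hq hqM _ ht
      exact E.gal_comm p (tgmSysU M hqM hq.ne_zero) (Uf q hq hqM) (hUf q hq hqM)
        (fun σ y => hUσ q hq hqM σ y) (hecke (tgU hq hqM (Set.notMem_empty q)))
        (tgzHeckeP_U hsurj p hq hqM) σ
    · intro d ht
      exact E.gal_comm p (tgmSysD M d) (tgkmD M MK d) (tgkm_fn_D M MK d)
        (fun σ y => hDσ d σ y) (hecke (tgDia M ∅ d)) (tgzHeckeP_D hsurj p d) σ
    · intro m ht
      have e1 : (⟨algebraMap ℤ (Module.End ℂ (CuspForm (Gamma1 M) 2)) m, ht⟩ :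
          tgHeckeAlg M (∅ : Set ℕ)) = ((m : ℤ) : tgHeckeAlg M (∅ : Set ℕ)) := by
        apply Subtype.ext
        simp
      rw [e1, map_intCast]
      exact (Int.cast_commute m (gal σ)).symm.eq
    · intro a b ha hb iha ihb ht
      have e1 : (⟨a + b, ht⟩ : tgHeckeAlg M (∅ : Set ℕ)) = ⟨a, ha⟩ + ⟨b, hb⟩ := rfl
      rw [e1, map_add, mul_add, add_mul, iha ha, ihb hb]
    · intro a b ha hb iha ihb ht
      have e1 : (⟨a * b, ht⟩ : tgHeckeAlg M (∅ : Set ℕ)) = ⟨a, ha⟩ * ⟨b, hb⟩ := rfl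
      rw [e1, map_mul, ← mul_assoc, iha ha, mul_assoc, ihb hb, mul_assoc]
  -- (H2)
  have hcont : ∀ n : ℕ, ∃ L : IntermediateField ℚ Kbar, FiniteDimensional ℚ L ∧
      ∀ σ : GQ, (∀ x ∈ L, σ x = x) → ∀ v : TT, ∃ w : TT, gal σ v - v = (p : ℤ_[p]) ^ n • w :=
    fun n => E.gal_cont p hfix n
  -- the Kummer exponents are prime to the residue characteristics
  have hcop : ∀ (q : ℕ), q.Prime → q ≠ p → ∀ k : ℕ, Nat.Coprime (p ^ k) q := by
    intro q hq hqp k
    apply Nat.Coprime.pow_left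
    exact (Nat.coprime_primes hp.out hq).mpr (Ne.symm hqp)
  -- (H3)
  have hunr : ∀ q : ℕ, q.Prime → ¬ q ∣ M → q ≠ p → ∀ P : ValuationSubring Kbar,
      P.LiesOverPrime q → ∀ σ ∈ P.inertiaSubgroupIn ℚ, gal σ = 1 := by
    intro q hq hqM hqp P hP σ hσ
    refine E.gal_eq_one p σ (fun k y hy => ?_)
    obtain ⟨hK, hnorm⟩ := tgz_K12 M hM h49 hq hqM P hP (hcop q hq hqp k)
      (tgn_prime_pow_ne_zero p k)
    exact tgk_K3_inertia hK hnorm (tgn_prime_pow_ne_zero p k) hσ hy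
  -- (H4)
  have hES : ∀ (l : ℕ) (hl : l.Prime) (hlM : ¬ l ∣ M), l ≠ p →
      ∀ u : (ZMod M)ˣ, (u : ZMod M) = (l : ZMod M) → ∀ A : ValuationSubring Kbar,
      A.LiesOverPrime l → ∀ σ : GQ, A.IsFrobeniusAt σ l →
        gal σ * gal σ - hecke (tgT hl hlM (Set.notMem_empty l)) * gal σ +
          (l : ℤ_[p]) • hecke (tgDia M ∅ u) = 0 := by
    intro l hl hlM hlp u hu A hA σ hσ
    haveI : NeZero l := ⟨hl.ne_zero⟩
    have hu' : u = dshUnit M hl hlM := by
      apply Units.ext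
      rw [hu, coe_dshUnit]
    subst hu'
    refine E.gal_frob p (tgmSysT M hl hlM) (tgmSysD M (dshUnit M hl hlM)) l
      (tgkmT M MK hl hlM) (tgkmD M MK (dshUnit M hl hlM)) (tgkm_fn_T M MK hl hlM)
      (tgkm_fn_D M MK (dshUnit M hl hlM)) σ (fun k y hy hT hD => ?_)
      (hecke (tgT hl hlM (Set.notMem_empty l))) (hecke (tgDia M ∅ (dshUnit M hl hlM)))
      (tgzHeckeP_T hsurj p hl hlM) (tgzHeckeP_D hsurj p (dshUnit M hl hlM))
    obtain ⟨hK, hnorm⟩ := tgz_K12 M hM h49 hl hlM A hA (hcop l hl hlp k)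
      (tgn_prime_pow_ne_zero p k)
    exact tgkm_hrel M MK hζ (tgGalois_an Kbar M) hemb hK hnorm (tgn_prime_pow_ne_zero p k) hl hlM
      hA hσ hy hT hD
  -- complex conjugation
  have hc : ∀ φ : TT, ((gal complexConjugation φ : TT) : Additive (Gamma1 M) →+ ℤ_[p])
      = -(tgeInv (Gamma1 M) ℤ_[p] ℤ_[p] (φ : Additive (Gamma1 M) →+ ℤ_[p])) :=
    fun φ => E.gal_conj p hconj φ
  refine ⟨TT, inferInstance, inferInstance, inferInstance, inferInstance, gal, hecke, hcomm, hcont,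
    hunr, hES, fun 𝒪 _ _ _ _ _ lam => ⟨tgz_finrank_teEigen hsurj p 𝒪 lam, ?_⟩⟩
  obtain ⟨v, hv, hvz⟩ := tgz_exists_not_scalar hsurj p (gal complexConjugation) hc 𝒪 lam
  exact ⟨complexConjugation, v, hv, hvz⟩

end

end Fermat.Agent.T1G
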