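/-
T1G-AN (helper1), TG-MONO part 17: **the Tate module package with nebentypus, unconditionally**:
`tgz_package p M hM h49 : TgzPackage p M` for `6 ≤ M`, `4 ∣ M ∨ 9 ∣ M`, and
`tgz_packageAll : TgzPackageAll`, hence (Γ₁-RES) `tgz_gamma1Res_final : DsvGamma1Res`.
(`tgz_package_of` of Mono/Final.lean with its leaves discharged: surjectivity of the
Eichler–Shimura pairing (TG-ES (E4)), complex conjugation and open stabilisers (AN-DICT ConjFix),
Galois equivariance of the functional Hecke operators (TG-KRON).)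
-/
import Mathlib
import Fermat.Agent.Lib.T1G.Mono.Final
import Fermat.Agent.Lib.T1G.ES.DictModel
import Fermat.Agent.Lib.T1G.Dict.ConjFix
import Fermat.Agent.Lib.T1G.Kron.ModelSig
import Fermat.Agent.Lib.T1G.Asm.Res

set_option autoImplicit false
set_option linter.unusedSectionVars false
set_option linter.style.haveILetI false
set_option linter.unusedVariables false
set_option synthInstance.maxHeartbeats 400000

namespace Fermat.Agent.T1G

open Complex Set Filter Topology Matrix MatrixGroups CongruenceSubgroup ModularCurve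
open UpperHalfPlane hiding I
open Fermat.Agent.S24Lib ModularCurve.Period Fermat.Agent.T1 Fermat.Agent.DS Fermat.Agent.CFT
attribute [local instance] KMod.charZero_k

local notation "Kbar" => AlgebraicClosure ℚ
local notation "GQ" => (AlgebraicClosure ℚ ≃ₐ[ℚ] AlgebraicClosure ℚ)

/-- **the Tate module package with nebentypus** for `Γ₁(M)`, `6 ≤ M`, `4 ∣ M ∨ 9 ∣ M` -/
theorem tgz_package (p : ℕ) [Fact p.Prime] (M : ℕ) [NeZero M] (hM : 6 ≤ M)
    (h49 : 4 ∣ M ∨ 9 ∣ M) : TgzPackage p M :=
  tgz_package_of p M hM h49 (tgePair_surjective_Gamma1_six M hM)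
    (fun y => (tgdModelOne Kbar M hM).fn_conj y)
    (fun y => tgd_exists_finite_fixing (tgOneQ M) y)
    (fun l _ hl hlM σ y => tgkmT_sigma_one M hM hl hlM σ y)
    (fun q hq hqM => haveI : NeZero q := ⟨hq.ne_zero⟩; tgkmU M (tgdModelOne Kbar M hM) hqM)
    (fun q hq hqM y => haveI : NeZero q := ⟨hq.ne_zero⟩;
      tgkm_fn_U M (tgdModelOne Kbar M hM) hqM y)
    (fun q hq hqM σ y => haveI : NeZero q := ⟨hq.ne_zero⟩;
      tgkmU_sigma M (tgdModelOne Kbar M hM) hqM σ y)

/-- the Tate module packages for all admissible levels -/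
theorem tgz_packageAll : TgzPackageAll := by
  intro M _ hM5 h49 p _
  refine tgz_package p M ?_ h49
  rcases h49 with ⟨k, rfl⟩ | ⟨k, rfl⟩ <;> omega

/-- **(Γ₁-RES)**, unconditionally -/
theorem tgz_gamma1Res_final : Fermat.Agent.DS.DsvGamma1Res :=
  tgz_gamma1Res_of_package tgz_packageAll

end Fermat.Agent.T1G
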